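import Fermat.Agent.CFT.Idele.LocalTriv

/-!
# Ideles which are norms for a normal subgroup, place by place

For `H` normal in `Gal(L/ℚ)` a fixed idele whose values at every prime lie in a stable subgroup
on which the norm from the part of the decomposition group in `H` is surjective is a norm.
-/

set_option autoImplicit false
set_option linter.unusedSectionVars false

noncomputable section

namespace Fermat.Agent.RT.Two.RingClass

open ExtCitation Fermat.Agent.Arith IntermediateField Fermat.Agent.CFT.Local Fermat.Agent.CFT.Idele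

local instance factPrimeNormLocal (q : Nat.Primes) : Fact (q : ℕ).Prime := ⟨q.2⟩

section Semi

variable {G T U : Type*} [Group G] [Group T] [CommGroup U] [MulDistribMulAction T U]
  {j : T →* G} {H : Subgroup G}

theorem semiStab_eq_comap [H.Normal] (r : G) : semiStab j H r = H.comap j := by
  ext s
  rw [mem_semiStab, Subgroup.mem_comap]
  refine ⟨fun h => ?_, fun h => ?_⟩
  · simpa [mul_assoc] using ‹H.Normal›.conj_mem _ h r
  · simpa using ‹H.Normal›.conj_mem _ h r⁻¹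

end Semi

variable {L : IntermediateField ℚ QBar} [FiniteDimensional ℚ L] [Normal ℚ L]

/-- The part of the decomposition group at `q` in `H`. -/
abbrev localPart (H : Subgroup (L ≃ₐ[ℚ] L)) (q : Nat.Primes) :
    Subgroup (E L q ≃ₐ[ℚ_[(q : ℕ)]] E L q) :=
  H.comap (toGlobal (q : ℕ) L)

/-- The norm is surjective on `D`. -/
def SurjOn {q : Nat.Primes} (S : Subgroup (E L q ≃ₐ[ℚ_[(q : ℕ)]] E L q))
    (D : Subgroup (E L q)ˣ) : Prop :=
  ∀ x ∈ D, (∀ s : S, (s : E L q ≃ₐ[ℚ_[(q : ℕ)]] E L q) • x = x) →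
    ∀ [Fintype S], ∃ z ∈ D, ∏ s : S, (s : E L q ≃ₐ[ℚ_[(q : ℕ)]] E L q) • z = x

/-- Nothing to do when the subgroup is trivial. -/
theorem surjOn_of_eq_bot {q : Nat.Primes} {S : Subgroup (E L q ≃ₐ[ℚ_[(q : ℕ)]] E L q)}
    (hS : S = ⊥) (D : Subgroup (E L q)ˣ) : SurjOn S D := by
  intro x hx _ _
  subst hS
  refine ⟨x, hx, ?_⟩
  rw [Fintype.prod_subsingleton _ (1 : (⊥ : Subgroup (E L q ≃ₐ[ℚ_[(q : ℕ)]] E L q)))]
  exact one_smul _ x

/-- Units are norms of units in an unramified extension. -/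
theorem surjOn_unitGroup {q : Nat.Primes} {S : Subgroup (E L q ≃ₐ[ℚ_[(q : ℕ)]] E L q)}
    (hS : S ⊓ inertia (E L q) = ⊥) : SurjOn S (unitGroup (E L q)) :=
  fun _ hx hfix _ => exists_normHom_unit_eq L hS hx hfix

/-- Deep units are norms of deep units. -/
theorem surjOn_deepUnits {q : Nat.Primes} (Λ : NormalLattice (E L q))
    (S : Subgroup (E L q ≃ₐ[ℚ_[(q : ℕ)]] E L q)) : SurjOn S (deepUnits Λ.good 0) := by
  intro x hx hfix _
  exact Λ.exists_normHom_eq S hx hfix

/-- A principal unit has a power of two exponent in any neighbourhood of one, at two. -/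
theorem exists_two_pow_sub_one_lt {q : Nat.Primes} (hq : (q : ℕ) = 2) {y : E L q}
    (hy : ‖y - 1‖ < 1) {ε : ℝ} (hε : 0 < ε) : ∃ k, ∀ m, k ≤ m → ‖y ^ 2 ^ m - 1‖ < ε := by
  have h2 : ‖(2 : E L q)‖ < 1 := by
    have := norm_natCast_self_lt_one (E L q)
    rwa [show ((q : ℕ) : E L q) = 2 by exact_mod_cast congrArg (Nat.cast : ℕ → E L q) hq] at this
  set c := max ‖(2 : E L q)‖ ‖y - 1‖ with hc
  have hc1 : c < 1 := max_lt h2 hy
  have hc0 : 0 ≤ c := le_max_of_le_left (norm_nonneg _)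
  have key : ∀ m : ℕ, ‖y ^ 2 ^ m - 1‖ ≤ c ^ (m + 1) := fun m => by
    induction m with
    | zero => simp [hc]
    | succ m ih =>
      set z := y ^ 2 ^ m - 1 with hz
      have e : y ^ 2 ^ (m + 1) - 1 = z * (2 + z) := by
        rw [hz, pow_succ 2 m, pow_mul]; ring
      have hzc : ‖z‖ ≤ c := ih.trans (by
        simpa using pow_le_pow_of_le_one hc0 hc1.le (show 1 ≤ m + 1 by omega))
      rw [e, norm_mul, pow_succ]
      refine mul_le_mul ih ?_ (norm_nonneg _) (pow_nonneg hc0 _)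
      exact (IsUltrametricDist.norm_add_le_max _ _).trans (max_le (le_max_left _ _) hzc)
  obtain ⟨k, hk⟩ := exists_pow_lt_of_lt_one hε hc1
  exact ⟨k, fun m hm => (key m).trans_lt
    ((pow_le_pow_of_le_one hc0 hc1.le (by omega)).trans_lt hk)⟩

/-- Powers of principal units at two are deep. -/
theorem exists_two_pow_mem_deepUnits {q : Nat.Primes} (hq : (q : ℕ) = 2)
    (Λ : NormalLattice (E L q)) {y : (E L q)ˣ} (hy : ‖(y : E L q) - 1‖ < 1) :
    ∃ k, ∀ m, k ≤ m → y ^ 2 ^ m ∈ deepUnits Λ.good 0 := by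
  obtain ⟨ε, hε, hball⟩ := Metric.mem_nhds_iff.mp (lat_mem_nhds_zero Λ.basis 0)
  obtain ⟨k, hk⟩ := exists_two_pow_sub_one_lt hq hy hε
  refine ⟨k, fun m hm => mem_deepUnits.mpr (hball ?_)⟩
  rw [mem_ball_zero_iff, Units.val_pow_eq_pow_val]
  exact hk m hm

/-- **A fixed idele which is locally a norm everywhere is a norm.** -/
theorem exists_norm_eq (H : Subgroup (L ≃ₐ[ℚ] L)) [H.Normal] [Fintype H] {f : idl L}
    (hf : f ∈ fixedBy H (idl L)) (D : ∀ q : Nat.Primes, Subgroup (E L q)ˣ)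
    (hD : ∀ q : Nat.Primes, ∀ t : E L q ≃ₐ[ℚ_[(q : ℕ)]] E L q, ∀ u ∈ D q, t • u ∈ D q)
    (T : Finset Nat.Primes) (hT : ∀ q ∉ T, D q ≤ unitGroup (E L q))
    (hsurj : ∀ q : Nat.Primes, SurjOn (localPart H q) (D q)) (hmem : ∀ (q : Nat.Primes) σ, val f q σ ∈ D q) :
    ∃ y : idl L, ∏ h : H, (h : L ≃ₐ[ℚ] L) • y = f := by
  classical
  have hloc : ∀ q : Nat.Primes, ∃ y, SemiIn (toGlobal (q : ℕ) L) (D q) y ∧
      ∀ σ, ∏ h : H, y (σ * (h : L ≃ₐ[ℚ] L)) = val f q σ := fun q =>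
    semi_norm_surj_of_surj (toGlobal_injective _ L) (hD q)
      (fun r x hx hfix _ => by
        have e : semiStab (toGlobal (q : ℕ) L) H r = localPart H q := semiStab_eq_comap r
        obtain ⟨z, hz, hzx⟩ := hsurj q x hx fun s => hfix ⟨s.1, e.ge s.2⟩
        exact ⟨z, hz, (Fintype.prod_equiv (MulEquiv.subgroupCongr e).toEquiv _ _
          fun _ => rfl).trans hzx⟩)
      ⟨fun t σ => val_toGlobal_mul f q t σ, hmem q⟩
      fun σ h hh => by rw [← val_smul, hf h hh]
  choose y hy hyv using hloc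
  let v : Family L := ⟨y, fun q => (hy q).equi, ⟨T, fun q hq σ => hT q hq ((hy q).mem σ)⟩⟩
  refine ⟨v.toIdl, val_ext fun q σ => ?_⟩
  rw [val_prod, ← hyv q σ]
  exact Finset.prod_congr rfl fun h _ => by rw [val_smul, Family.val_toIdl]

end Fermat.Agent.RT.Two.RingClass

end
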