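import Fermat.Agent.CFT.Formation.NotNorm
import Fermat.Agent.CFT.Idele.FixedClasses
import Fermat.Agent.Arith.Chebotarev.Main
import Fermat.Agent.RT.Two.RingClass.NormLocal

/-!
# The cubic character of fixed idele classes

For a normal subgroup `H` of order three with the cube roots of unity fixed, the fixed classes
modulo norms have one generator which is not a norm: this gives an additive function with values
in `ℤ/3` on fixed ideles, vanishing exactly on norms modulo principal ideles.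
-/

set_option autoImplicit false
set_option linter.unusedSectionVars false

noncomputable section

namespace Fermat.Agent.RT.Two.RingClass

open ExtCitation Fermat.Agent.Arith.Chebotarev Fermat.Agent.Arith IntermediateField Fermat.Agent.CFT.Local Fermat.Agent.CFT.Idele
open Fermat.Agent.CFT.Duality
open scoped Pointwise

local instance factPrimeTheta (q : Nat.Primes) : Fact (q : ℕ).Prime := ⟨q.2⟩

variable {L : IntermediateField ℚ QBar} [FiniteDimensional ℚ L] [Normal ℚ L]

/-! Shortcut instances for the searches through the idele group. -/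

local instance : CommGroup (idl L) := inferInstance
local instance : CommGroup (ClassGrp L) := inferInstance
local instance : Group (ClassGrp L) := inferInstance
local instance : Monoid (ClassGrp L) := inferInstance
local instance : Monoid (idl L) := inferInstance
local instance : SMul (L ≃ₐ[ℚ] L) (idl L) := inferInstance
local instance : SMul (L ≃ₐ[ℚ] L) (ClassGrp L) := inferInstance
local instance : MulDistribMulAction (L ≃ₐ[ℚ] L) (idl L) := inferInstance
local instance : MulDistribMulAction (L ≃ₐ[ℚ] L) (ClassGrp L) := inferInstance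

/-- An element of the decomposition group of the distinguished place restricts into `decomp`. -/
theorem res_mem_decomp_place (q : Nat.Primes) {g : GQ}
    (hg : g • padicPlace (q : ℕ) = padicPlace (q : ℕ)) : res L g ∈ decomp L q :=
  (mem_range_toGlobal_iff (q : ℕ) L (res L g)).2 fun x hx => by
    rw [res_apply]; exact map_mem_of_mem_decomposition hg hx

/-- A Frobenius at some place over `q` conjugated to the distinguished place. -/
theorem exists_conj_frobenius (q : Nat.Primes) {A : ValuationSubring QBar}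
    (hA : A.LiesOverPrime (q : ℕ)) {F : GQ} (hF : A.IsFrobeniusAt F (q : ℕ)) :
    ∃ a : GQ, a • padicPlace (q : ℕ) = A ∧
      (padicPlace (q : ℕ)).IsFrobeniusAt (a⁻¹ * F * a) (q : ℕ) := by
  obtain ⟨a, ha⟩ := exists_smul_eq (padicPlace_liesOverPrime (q : ℕ)) hA q.2
  refine ⟨a, ha, ?_⟩
  have := isFrobeniusAt_conj (g := a⁻¹) hF
  rwa [← ha, inv_smul_smul, inv_inv] at this

theorem smul_padicPlace_of_isFrobeniusAt (q : Nat.Primes) {F : GQ}
    (hF : (padicPlace (q : ℕ)).IsFrobeniusAt F (q : ℕ)) :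
    F • padicPlace (q : ℕ) = padicPlace (q : ℕ) :=
  (isFrobeniusAt_iff_forall_mem.mp hF).1

variable (H : Subgroup (L ≃ₐ[ℚ] L)) [Fintype H]

/-- The norm for `H`. -/
def normH : idl L →* idl L where
  toFun f := ∏ h : H, (h : L ≃ₐ[ℚ] L) • f
  map_one' := by simp
  map_mul' f f' := by simp [smul_mul', Finset.prod_mul_distrib]

/-- The norm for `H` on classes. -/
def normHC : ClassGrp L →* ClassGrp L where
  toFun x := ∏ h : H, (h : L ≃ₐ[ℚ] L) • x
  map_one' := by simp
  map_mul' f f' := by simp [smul_mul', Finset.prod_mul_distrib]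

theorem mk_normH (f : idl L) :
    (QuotientGroup.mk (normH H f) : ClassGrp L) = normHC H (QuotientGroup.mk f) := by
  show QuotientGroup.mk' (prinL L).range (∏ h : H, (h : L ≃ₐ[ℚ] L) • f) = _
  rw [map_prod]
  exact Finset.prod_congr rfl fun h _ => (smul_mk L _ f).symm

/-- An additive function on fixed ideles vanishing exactly on norms modulo principal ideles. -/
structure IsTheta (θ : idl L → ZMod 3) : Prop where
  map_mul : ∀ f ∈ fixedBy H (idl L), ∀ f' ∈ fixedBy H (idl L), θ (f * f') = θ f + θ f'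
  eq_zero_iff : ∀ f ∈ fixedBy H (idl L),
    θ f = 0 ↔ (QuotientGroup.mk f : ClassGrp L) ∈ (normHC H).range
  conj : ∀ σ : L ≃ₐ[ℚ] L, ∃ c : ZMod 3, c ≠ 0 ∧ ∀ f ∈ fixedBy H (idl L), θ (σ • f) = c * θ f

variable {H}

theorem prod_range_eq_prod_subgroup {M : Type*} [CommMonoid M] {g : L ≃ₐ[ℚ] L}
    (hgH : Subgroup.zpowers g = H) (hg : orderOf g = 3) (F : (L ≃ₐ[ℚ] L) → M) :
    ∏ i ∈ Finset.range 3, F (g ^ i) = ∏ h : H, F h := by
  have hmem : ∀ i : Fin 3, g ^ (i : ℕ) ∈ H := fun i => hgH ▸ Subgroup.npow_mem_zpowers g i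
  rw [← Fin.prod_univ_eq_prod_range]
  refine Fintype.prod_bijective (fun i : Fin 3 => (⟨g ^ (i : ℕ), hmem i⟩ : H)) ?_ _ _ fun _ => rfl
  rw [Fintype.bijective_iff_injective_and_card]
  refine ⟨fun i j h => Fin.ext ?_, ?_⟩
  · exact pow_injOn_Iio_orderOf (by rw [hg]; exact Set.mem_Iio.mpr i.2)
      (by rw [hg]; exact Set.mem_Iio.mpr j.2) (congrArg Subtype.val h)
  · rw [Fintype.card_fin, ← Nat.card_eq_fintype_card, ← hgH, Nat.card_zpowers, hg]

theorem isStep_of_orderOf {g : L ≃ₐ[ℚ] L} (hgH : Subgroup.zpowers g = H) (hg : orderOf g = 3) :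
    CFT.IsStep 3 H ⊥ g where
  le := bot_le
  mem := hgH ▸ Subgroup.mem_zpowers g
  notMem h := by
    rw [Subgroup.mem_bot] at h
    rw [h, orderOf_one] at hg
    exact absurd hg (by decide)
  isPGroup := IsPGroup.iff_card.mpr ⟨1, by rw [← hgH, Nat.card_zpowers, hg, pow_one]⟩
  relIndex := by rw [Subgroup.relIndex_bot_left, ← hgH, Nat.card_zpowers, hg]

theorem smul_normHC [H.Normal] (σ : L ≃ₐ[ℚ] L) (x : ClassGrp L) :
    σ • normHC H x = normHC H (σ • x) := by
  show σ • (∏ h : H, (h : L ≃ₐ[ℚ] L) • x) = ∏ h : H, (h : L ≃ₐ[ℚ] L) • σ • x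
  rw [Finset.smul_prod']
  refine Fintype.prod_equiv
    ⟨fun h : H => (⟨σ * h * σ⁻¹, ‹H.Normal›.conj_mem _ h.2 σ⟩ : H),
      fun h : H => (⟨σ⁻¹ * h * σ, by simpa using ‹H.Normal›.conj_mem _ h.2 σ⁻¹⟩ : H),
      fun h => Subtype.ext (by dsimp only; group), fun h => Subtype.ext (by dsimp only; group)⟩
    _ _ fun h => ?_
  simp [smul_smul]

/-- Some fixed class is not a norm. -/
theorem exists_fixed_not_norm [H.Normal] {ζ : L} (hζ : IsPrimitiveRoot ζ 3) {g : L ≃ₐ[ℚ] L}
    (hgH : Subgroup.zpowers g = H) (hg : orderOf g = 3) :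
    ∃ x ∈ fixedBy H (ClassGrp L), x ∉ (normHC H).range := by
  have : Fact (Nat.Prime 3) := ⟨Nat.prime_three⟩
  have : IsGalois ℚ L := ⟨⟩
  obtain ⟨ℓ, hℓ, -, A, hA, F, hF, hFg⟩ := exists_frobenius_restrict_eq L (lift L g) ∅
  set q : Nat.Primes := ⟨ℓ, hℓ⟩
  have : Fact (Nat.Prime (q : ℕ)) := ⟨hℓ⟩
  obtain ⟨a, -, hF'⟩ := exists_conj_frobenius q hA hF
  have hHq : H ≤ decomp L q := by
    set k := res L (a⁻¹ * F * a) with hk
    have hkd : k ∈ decomp L q :=
      res_mem_decomp_place q (smul_padicPlace_of_isFrobeniusAt q hF')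
    have hkH : k ∈ H := by
      rw [hk, map_mul, map_mul, map_inv, show res L F = res L (lift L g) from hFg, res_lift]
      simpa using ‹H.Normal›.conj_mem _ (hgH ▸ Subgroup.mem_zpowers g) (res L a)⁻¹
    have hk1 : k ≠ 1 := by
      rw [hk, map_mul, map_mul, map_inv, show res L F = res L (lift L g) from hFg, res_lift]
      intro h
      have : g = 1 := by
        have := congrArg (fun z => res L a * z * (res L a)⁻¹) h
        simpa [mul_assoc] using this
      rw [this, orderOf_one] at hg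
      exact absurd hg (by decide)
    have hcard : Nat.card H = 3 := by rw [← hgH, Nat.card_zpowers, hg]
    have : Finite H := Nat.finite_of_card_ne_zero (by rw [hcard]; decide)
    have hle : Subgroup.zpowers k ≤ H := Subgroup.zpowers_le.mpr hkH
    have hord : orderOf k = 3 := by
      have hdvd : orderOf k ∣ 3 := by
        rw [← Nat.card_zpowers, ← hcard]; exact Subgroup.card_dvd_of_le hle
      exact ((Nat.dvd_prime Nat.prime_three).mp hdvd).resolve_left fun h =>
        hk1 (orderOf_eq_one_iff.mp h)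
    rw [← Subgroup.eq_of_le_of_card_ge hle (by rw [hcard, Nat.card_zpowers, hord])]
    exact Subgroup.zpowers_le.mpr hkd
  obtain ⟨y, hy, hne⟩ :=
    Fermat.Agent.CFT.Formation.exists_loc_ne_norm (p := 3) (by decide) hζ q
      (isStep_of_orderOf hgH hg) hHq
  refine ⟨(proj L (loc' L q y)).toMul, fun h hh => ?_, ?_⟩
  · obtain ⟨t, rfl⟩ := MonoidHom.mem_range.1 (hHq hh)
    have := congrArg Additive.toMul (proj_smul L (toGlobal (q : ℕ) L t) (loc' L q y))
    rw [← loc'_smul, hy t hh] at this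
    exact this.symm
  · rintro ⟨b, hb⟩
    refine hne (Additive.ofMul b) (fun k hk => by rw [Subgroup.mem_bot.mp hk, one_smul]) ?_
    refine Additive.toMul.injective ?_
    rw [toMul_sum', ← hb]
    exact ((prod_range_eq_prod_subgroup hgH hg fun h => h • b)).symm

/-- A subgroup with one generator modulo a subgroup of exponent three. -/
theorem exists_mod_three {A : Type*} [CommGroup A] (Fx N : Subgroup A) {x₀ : A}
    (h3 : x₀ ^ (3 : ℤ) ∈ N) (hx : x₀ ∉ N) (hgen : ∀ a ∈ Fx, ∃ m : ℤ, a / x₀ ^ m ∈ N) :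
    ∃ φ : A → ZMod 3, (∀ a ∈ Fx, ∀ b ∈ Fx, φ (a * b) = φ a + φ b) ∧
      (∀ a ∈ Fx, φ a = 0 ↔ a ∈ N) ∧
      ∀ e : A →* A, (∀ n ∈ N, e n ∈ N) → e x₀ ∈ Fx → ∀ a ∈ Fx, φ (e a) = φ (e x₀) * φ a := by
  classical
  have hdvd : ∀ k : ℤ, x₀ ^ k ∈ N → ((k : ℤ) : ZMod 3) = 0 := fun k hk => by
    rw [ZMod.intCast_zmod_eq_zero_iff_dvd]
    by_contra hnd
    have hco : IsCoprime (k : ℤ) 3 := by
      refine ((Int.prime_three.coprime_iff_not_dvd).mpr ?_).symm
      exact_mod_cast hnd
    obtain ⟨u, v, huv⟩ := hco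
    refine hx ?_
    rw [← zpow_one x₀, ← huv, zpow_add, mul_comm u, mul_comm v, zpow_mul, zpow_mul]
    exact mul_mem (zpow_mem hk u) (zpow_mem h3 v)
  let φ : A → ZMod 3 := fun a =>
    if h : ∃ m : ℤ, a / x₀ ^ m ∈ N then (h.choose : ZMod 3) else 0
  have hφ : ∀ (a) (m : ℤ), a / x₀ ^ m ∈ N → φ a = (m : ZMod 3) := fun a m hm => by
    have hex : ∃ m : ℤ, a / x₀ ^ m ∈ N := ⟨m, hm⟩
    simp only [φ, dif_pos hex]
    have h' := div_mem hm hex.choose_spec
    rw [div_div_div_cancel_left, div_eq_mul_inv, ← zpow_sub] at h'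
    have := hdvd _ h'
    rwa [Int.cast_sub, sub_eq_zero] at this
  refine ⟨φ, fun a ha b hb => ?_, fun a ha => ?_, fun e he hex a ha => ?_⟩
  · obtain ⟨m, hm⟩ := hgen a ha
    obtain ⟨m', hm'⟩ := hgen b hb
    rw [hφ _ m hm, hφ _ m' hm', ← Int.cast_add]
    refine hφ _ _ ?_
    rw [zpow_add, ← div_mul_div_comm]
    exact mul_mem hm hm'
  · obtain ⟨m, hm⟩ := hgen a ha
    rw [hφ _ m hm]
    refine ⟨fun h => ?_, fun h => hdvd m ?_⟩
    · rw [ZMod.intCast_zmod_eq_zero_iff_dvd] at h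
      obtain ⟨j, hj⟩ := h
      have h2 := mul_mem hm (zpow_mem h3 j)
      rwa [← zpow_mul, show (3 : ℤ) * j = m by exact_mod_cast hj.symm, div_mul_cancel] at h2
    · simpa using div_mem h hm
  · obtain ⟨m, hm⟩ := hgen a ha
    obtain ⟨c, hc⟩ := hgen _ hex
    rw [hφ _ m hm, hφ _ c hc, ← Int.cast_mul]
    refine hφ _ _ ?_
    have h1 := he _ hm
    rw [map_div, map_zpow] at h1
    have h2 := zpow_mem hc m
    rw [div_zpow, ← zpow_mul] at h2
    simpa using mul_mem h1 h2

/-- **The cubic character exists.** -/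
theorem exists_isTheta [H.Normal] {ζ : L} (hζ : IsPrimitiveRoot ζ 3) {g : L ≃ₐ[ℚ] L}
    (hgH : Subgroup.zpowers g = H) (hg : orderOf g = 3) : ∃ θ, IsTheta H θ := by
  classical
  have : Fact (Nat.Prime 3) := ⟨Nat.prime_three⟩
  obtain ⟨x₀, hx₀, hgen⟩ := secondIneq L (p := 3) (by decide) hζ H ⊥ g (isStep_of_orderOf hgH hg)
  set N := (normHC H).range with hN
  have hnorm : ∀ b, ∏ i ∈ Finset.range 3, g ^ i • b = normHC H b := fun b =>
    prod_range_eq_prod_subgroup hgH hg fun h => h • b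
  have hgen' : ∀ x ∈ fixedBy H (ClassGrp L), ∃ m : ℤ, x / x₀ ^ m ∈ N := fun x hx => by
    obtain ⟨m, b, -, e⟩ := hgen x hx
    refine ⟨m, b, ?_⟩
    rw [← hnorm, e]
    exact (mul_div_cancel_left (G := ClassGrp L) _ _).symm
  have h3 : x₀ ^ (3 : ℤ) ∈ N := by
    refine ⟨x₀, ?_⟩
    show ∏ h : H, (h : L ≃ₐ[ℚ] L) • x₀ = _
    rw [Finset.prod_congr rfl fun h _ => hx₀ _ h.2, Finset.prod_const, Finset.card_univ,
      ← Nat.card_eq_fintype_card, ← hgH, Nat.card_zpowers, hg]
    exact (zpow_natCast x₀ 3).symm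
  have hx₀N : x₀ ∉ N := fun h => by
    obtain ⟨x, hx, hxN⟩ := exists_fixed_not_norm hζ hgH hg
    obtain ⟨m, hm⟩ := hgen' x hx
    have h2 := mul_mem hm (zpow_mem h m)
    rw [div_mul_cancel] at h2
    exact hxN h2
  obtain ⟨φ, hmul, hzero, he⟩ := exists_mod_three (fixedBy H (ClassGrp L)) N h3 hx₀N hgen'
  have hfix : ∀ f ∈ fixedBy H (idl L), (QuotientGroup.mk f : ClassGrp L) ∈
      fixedBy H (ClassGrp L) := fun f hf h hh =>
    (smul_mk L h f).trans (congrArg QuotientGroup.mk (hf h hh))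
  refine ⟨fun f => φ (QuotientGroup.mk f), fun f hf f' hf' => hmul _ (hfix f hf) _ (hfix f' hf'),
    fun f hf => hzero _ (hfix f hf), fun σ => ?_⟩
  have hσN : ∀ (τ : L ≃ₐ[ℚ] L), ∀ x ∈ N, τ • x ∈ N := by
    rintro τ _ ⟨b, rfl⟩
    exact ⟨τ • b, (smul_normHC τ b).symm⟩
  have hσx : σ • x₀ ∈ fixedBy H (ClassGrp L) := fun h hh => by
    rw [smul_smul, show h * σ = σ * (σ⁻¹ * h * σ) by group, mul_smul,
      hx₀ _ (by simpa using ‹H.Normal›.conj_mem _ hh σ⁻¹)]
  refine ⟨φ (σ • x₀), fun h0 => hx₀N ?_, fun f hf => ?_⟩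
  · simpa using hσN σ⁻¹ _ ((hzero _ hσx).mp h0)
  · exact (congrArg φ (smul_mk L σ f)).symm.trans
      (he (MulDistribMulAction.toMonoidHom (ClassGrp L) σ) (hσN σ) hσx _ (hfix f hf))

namespace IsTheta

variable {θ : idl L → ZMod 3} (hθ : IsTheta H θ)
include hθ

theorem map_one : θ 1 = 0 :=
  (hθ.eq_zero_iff 1 (one_mem _)).mpr ⟨1, (normHC H).map_one⟩

theorem map_prin {a : Lˣ} (ha : prinL L a ∈ fixedBy H (idl L)) : θ (prinL L a) = 0 := by
  refine (hθ.eq_zero_iff _ ha).mpr ?_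
  exact ⟨1, (normHC H).map_one.trans
    ((QuotientGroup.eq_one_iff (N := (prinL L).range) (prinL L a)).mpr ⟨a, rfl⟩).symm⟩

theorem map_pow {f : idl L} (hf : f ∈ fixedBy H (idl L)) (n : ℕ) :
    θ (f ^ n) = n * θ f := by
  induction n with
  | zero => simp [hθ.map_one]
  | succ n ih => rw [pow_succ, hθ.map_mul _ (pow_mem hf n) _ hf, ih]; push_cast; ring

theorem map_div {f f' : idl L} (hf : f ∈ fixedBy H (idl L)) (hf' : f' ∈ fixedBy H (idl L)) :
    θ (f / f') = θ f - θ f' := by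
  rw [eq_sub_iff_add_eq, ← hθ.map_mul _ (div_mem hf hf') _ hf', div_mul_cancel]

end IsTheta

end Fermat.Agent.RT.Two.RingClass

end
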