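import Fermat.Agent.CFT.Idele.Decomp
import Fermat.Agent.CFT.Idele.PsiNorm
import Fermat.Agent.RT.Two.RingClass.Theta

/-!
# Where the cubic character vanishes, and where it does not

It kills fixed ideles which are units away from primes where `H` meets the decomposition group
trivially and principal units at two; it does not kill `ℓ` at an unramified prime whose
decomposition group contains `H`.
-/

set_option autoImplicit false
set_option linter.unusedSectionVars false

noncomputable section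

namespace Fermat.Agent.RT.Two.RingClass

open ExtCitation Fermat.Agent.Arith Fermat.Agent.Arith.Chebotarev IntermediateField
  Fermat.Agent.CFT.Local Fermat.Agent.CFT.Idele
open Fermat.Agent.CFT.Duality
open scoped Pointwise

local instance factPrimeVanish (q : Nat.Primes) : Fact (q : ℕ).Prime := ⟨q.2⟩

variable {L : IntermediateField ℚ QBar} [FiniteDimensional ℚ L] [Normal ℚ L]
  {H : Subgroup (L ≃ₐ[ℚ] L)} [Fintype H] [H.Normal] {θ : idl L → ZMod 3}

/-- **Units and principal units at two are killed.** -/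
theorem IsTheta.eq_zero_of_local (hθ : IsTheta H θ)
    (hinert : ∀ q : Nat.Primes, (q : ℕ) ≠ 2 → localPart H q ⊓ inertia (E L q) = ⊥)
    {f : idl L} (hf : f ∈ fixedBy H (idl L)) (T : Finset Nat.Primes)
    (hT : ∀ q ∈ T, localPart H q = ⊥)
    (hval : ∀ q ∉ T, ∀ σ, val f q σ ∈ unitGroup (E L q) ∧
      ((q : ℕ) = 2 → ‖((val f q σ : (E L q)ˣ) : E L q) - 1‖ < 1)) :
    θ f = 0 := by
  classical
  let Λ := fun q : Nat.Primes => Classical.choice (exists_normalLattice (E := E L q))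
  let D : ∀ q : Nat.Primes, Subgroup (E L q)ˣ := fun q =>
    if q ∈ T then ⊤ else if (q : ℕ) = 2 then deepUnits (Λ q).good 0 else unitGroup (E L q)
  -- the exponent
  set q₂ : Nat.Primes := ⟨2, Nat.prime_two⟩
  have hk : ∀ σ, ∃ k, ∀ m, k ≤ m → q₂ ∉ T →
      val f q₂ σ ^ 2 ^ m ∈ deepUnits (Λ q₂).good 0 := fun σ => by
    by_cases h : q₂ ∈ T
    · exact ⟨0, fun m _ h' => absurd h h'⟩
    · obtain ⟨k, hk⟩ := exists_two_pow_mem_deepUnits rfl (Λ q₂) ((hval q₂ h σ).2 rfl)
      exact ⟨k, fun m hm _ => hk m hm⟩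
  choose k hk using hk
  set m := Finset.univ.sup k
  have hval' : ∀ (q : Nat.Primes) (σ), val (f ^ 2 ^ m) q σ = val f q σ ^ 2 ^ m := fun q σ =>
    (valHom q σ).map_pow f _
  have hDs : ∀ (q : Nat.Primes) (t : E L q ≃ₐ[ℚ_[(q : ℕ)]] E L q), ∀ u ∈ D q, t • u ∈ D q := by
    intro q t u hu
    simp only [D] at hu ⊢
    split_ifs at hu ⊢
    · exact Subgroup.mem_top _
    · exact (Λ q).smul_mem_deepUnits hu
    · exact (smul_mem_unitGroup_iff t u).2 hu
  have hDu : ∀ q ∉ insert q₂ T, D q ≤ unitGroup (E L q) := by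
    intro q hq
    rw [Finset.mem_insert, not_or] at hq
    simp only [D, if_neg hq.2, if_neg (fun h => hq.1 (Subtype.ext h) : (q : ℕ) ≠ 2)]
    exact le_rfl
  have hDn : ∀ q : Nat.Primes, SurjOn (localPart H q) (D q) := by
    intro q
    simp only [D]
    split_ifs with h1 h2
    · exact surjOn_of_eq_bot (hT q h1) ⊤
    · exact surjOn_deepUnits _ _
    · exact surjOn_unitGroup (hinert q h2)
  have hDm : ∀ (q : Nat.Primes) (σ), val (f ^ 2 ^ m) q σ ∈ D q := by
    intro q σ
    rw [hval']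
    simp only [D]
    split_ifs with h1 h2
    · exact Subgroup.mem_top _
    · obtain rfl : q = q₂ := Subtype.ext h2
      exact hk σ m (Finset.le_sup (Finset.mem_univ σ)) h1
    · exact pow_mem (hval q h1 σ).1 _
  obtain ⟨y, hy⟩ := exists_norm_eq H (f := f ^ 2 ^ m) (pow_mem hf _) D hDs (insert q₂ T) hDu hDn hDm
  have h0 : θ (f ^ 2 ^ m) = 0 :=
    (hθ.eq_zero_iff _ (pow_mem hf _)).mpr
      ⟨QuotientGroup.mk y, (mk_normH H y).symm.trans (congrArg QuotientGroup.mk hy)⟩
  rw [hθ.map_pow hf, mul_eq_zero] at h0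
  refine h0.resolve_left ?_
  rw [Nat.cast_pow]
  exact pow_ne_zero _ (by decide)

/-- The number `ℓ` as a unit of the completion at `ℓ`. -/
def ellUnit (L : IntermediateField ℚ QBar) (q : Nat.Primes) : (E L q)ˣ :=
  Units.mk0 ((q : ℕ) : E L q) (Nat.cast_ne_zero.mpr q.2.ne_zero)

theorem smul_ellUnit (q : Nat.Primes) (t : E L q ≃ₐ[ℚ_[(q : ℕ)]] E L q) :
    t • ellUnit L q = ellUnit L q :=
  Units.ext (_root_.map_natCast t _)

theorem smul_locIdl_ellUnit (q : Nat.Primes) {d : L ≃ₐ[ℚ] L} (hd : d ∈ decomp L q) :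
    d • locIdl q (ellUnit L q) = locIdl q (ellUnit L q) := by
  obtain ⟨t, rfl⟩ := MonoidHom.mem_range.1 hd
  rw [smul_locIdl, smul_ellUnit]

theorem locIdl_ellUnit_mem_fixedBy {q : Nat.Primes} (hHq : H ≤ decomp L q) :
    locIdl q (ellUnit L q) ∈ fixedBy H (idl L) := fun _ hh => smul_locIdl_ellUnit q (hHq hh)

/-- In an unramified completion an element is a power of `ℓ` times a unit. -/
theorem exists_ellUnit_zpow {q : Nat.Primes} (hun : inertia (E L q) = ⊥) (y : (E L q)ˣ) :
    ∃ j : ℤ, y / ellUnit L q ^ j ∈ unitGroup (E L q) := by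
  obtain ⟨r, hr⟩ := exists_padic_norm_eq hun y
  refine ⟨Padic.valuation (r : ℚ_[(q : ℕ)]), ?_⟩
  rw [mem_unitGroup, Units.val_div_eq_div_val, norm_div, hr,
    Padic.norm_eq_zpow_neg_valuation r.ne_zero, Units.val_zpow_eq_zpow_val, norm_zpow, ellUnit,
    Units.val_mk0, ← _root_.map_natCast (algebraMap ℚ_[(q : ℕ)] (E L q)) (q : ℕ), norm_algebraMap',
    Padic.norm_p, inv_zpow', div_self (zpow_ne_zero _ (Nat.cast_ne_zero.mpr q.2.ne_zero))]

/-- **The number `ℓ` at a place inert in the cubic step is not killed.** -/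
theorem IsTheta.locIdl_ellUnit_ne_zero (hθ : IsTheta H θ)
    (hinert : ∀ q : Nat.Primes, (q : ℕ) ≠ 2 → localPart H q ⊓ inertia (E L q) = ⊥)
    {ζ : L} (hζ : IsPrimitiveRoot ζ 3) {g : L ≃ₐ[ℚ] L} (hgH : Subgroup.zpowers g = H)
    (hg : orderOf g = 3) {q : Nat.Primes} (hq : (q : ℕ) ≠ 2) (hun : inertia (E L q) = ⊥)
    (hHq : H ≤ decomp L q) : θ (locIdl q (ellUnit L q)) ≠ 0 := by
  classical
  have : Fact (Nat.Prime 3) := ⟨Nat.prime_three⟩
  obtain ⟨y, hy, hne⟩ := Fermat.Agent.CFT.Formation.exists_loc_ne_norm (p := 3) (by decide) hζ q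
    (isStep_of_orderOf hgH hg) hHq
  obtain ⟨j, hu⟩ := exists_ellUnit_zpow hun y.toMul
  set u := y.toMul / ellUnit L q ^ j with hu'
  have hufix : ∀ t, toGlobal (q : ℕ) L t ∈ H → t • u = u := fun t ht => by
    rw [hu', smul_div', smul_zpow', smul_ellUnit]
    exact congrArg (· / _) (congrArg Additive.toMul (hy t ht))
  have hlu : locIdl q u ∈ fixedBy H (idl L) := fun h hh => by
    obtain ⟨t, rfl⟩ := MonoidHom.mem_range.1 (hHq hh)
    rw [smul_locIdl, hufix t hh]
  have h1 : θ (locIdl q u) = 0 := by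
    refine hθ.eq_zero_of_local hinert hlu ∅ (by simp) fun q' _ σ => ?_
    rcases eq_or_ne q' q with rfl | hne'
    · refine ⟨?_, fun h => absurd h hq⟩
      by_cases hσ : σ ∈ decomp L q'
      · obtain ⟨t, rfl⟩ := MonoidHom.mem_range.1 hσ
        rw [val_locIdl_self]
        exact (smul_mem_unitGroup_iff t u).2 hu
      · rw [val_locIdl_of_notMem q' _ hσ]; exact one_mem _
    · rw [val_locIdl_of_ne q _ hne']
      exact ⟨one_mem _, fun _ => by simp⟩
  intro h0
  have hmem : (QuotientGroup.mk (locIdl q y.toMul) : ClassGrp L) ∈ (normHC H).range := by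
    rw [show y.toMul = u * ellUnit L q ^ j from (div_mul_cancel _ _).symm, _root_.map_mul, _root_.map_zpow,
      QuotientGroup.mk_mul, QuotientGroup.mk_zpow]
    exact mul_mem ((hθ.eq_zero_iff _ hlu).mp h1)
      (zpow_mem ((hθ.eq_zero_iff _ (locIdl_ellUnit_mem_fixedBy hHq)).mp h0) j)
  obtain ⟨b, hb⟩ := hmem
  refine hne (Additive.ofMul b) (fun k hk => by rw [Subgroup.mem_bot.mp hk, one_smul]) ?_
  refine Additive.toMul.injective ?_
  rw [toMul_sum']
  exact hb.symm.trans (prod_range_eq_prod_subgroup hgH hg fun h => h • b).symm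

/-- The decomposition group at an unramified prime is generated by a Frobenius. -/
theorem decomp_le_zpowers {q : Nat.Primes} (hun : inertia (E L q) = ⊥) {F : GQ}
    (hF : (padicPlace (q : ℕ)).IsFrobeniusAt F (q : ℕ)) :
    decomp L q ≤ Subgroup.zpowers (res L F) := by
  rintro _ ⟨t, rfl⟩
  obtain ⟨τ, rfl⟩ := AlgEquiv.restrictNormalHom_surjective (K₁ := E L q) (Ω q) t
  obtain ⟨i, hi⟩ := exists_pow_restrict_eq L ((inertia_eq_bot_iff (q : ℕ) L).1 hun) hF τ
  rw [toGlobal_restrict]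
  exact hi ▸ Subgroup.npow_mem_zpowers _ i

theorem res_frobenius_mem_decomp {q : Nat.Primes} {F : GQ}
    (hF : (padicPlace (q : ℕ)).IsFrobeniusAt F (q : ℕ)) : res L F ∈ decomp L q :=
  res_mem_decomp_place q (smul_padicPlace_of_isFrobeniusAt q hF)

/-- An element whose powers contain `H` acts trivially on the character. -/
theorem IsTheta.smul_eq_of_le_zpowers (hθ : IsTheta H θ)
    (hinert : ∀ q : Nat.Primes, (q : ℕ) ≠ 2 → localPart H q ⊓ inertia (E L q) = ⊥)
    {ζ : L} (hζ : IsPrimitiveRoot ζ 3) {g : L ≃ₐ[ℚ] L} (hgH : Subgroup.zpowers g = H)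
    (hg : orderOf g = 3) {h : L ≃ₐ[ℚ] L} (hh : H ≤ Subgroup.zpowers h) {f : idl L}
    (hf : f ∈ fixedBy H (idl L)) : θ (h • f) = θ f := by
  classical
  have : IsGalois ℚ L := ⟨⟩
  obtain ⟨T, hT⟩ := exists_finset_unramified L
  obtain ⟨ℓ, hℓ, hℓS, A, hA, F, hF, hFh⟩ :=
    exists_frobenius_restrict_eq L (lift L h) (insert 2 (T.image fun q : Nat.Primes => (q : ℕ)))
  set q : Nat.Primes := ⟨ℓ, hℓ⟩
  have : Fact (Nat.Prime (q : ℕ)) := ⟨hℓ⟩
  have hq2 : (q : ℕ) ≠ 2 := fun e => hℓS (by rw [show ℓ = 2 from e]; exact Finset.mem_insert_self _ _)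
  have hun : inertia (E L q) = ⊥ := hT q fun hm =>
    hℓS (Finset.mem_insert_of_mem (Finset.mem_image.mpr ⟨q, hm, rfl⟩))
  obtain ⟨a, -, hF'⟩ := exists_conj_frobenius q hA hF
  set h' := res L (a⁻¹ * F * a) with hh'
  have hconj : h' = (res L a)⁻¹ * h * res L a := by
    rw [hh', _root_.map_mul, _root_.map_mul, _root_.map_inv, show res L F = res L (lift L h) from hFh, res_lift]
  have hd : h' ∈ decomp L q := res_frobenius_mem_decomp hF'
  have hHq : H ≤ decomp L q := fun x hx => by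
    obtain ⟨i, hi⟩ := hh (by simpa using ‹H.Normal›.conj_mem _ hx (res L a) : res L a * x * (res L a)⁻¹ ∈ H)
    have hx' : x = h' ^ i := by
      rw [hconj, show (res L a)⁻¹ * h * res L a = (res L a)⁻¹ * h * ((res L a)⁻¹)⁻¹ by rw [inv_inv],
        conj_zpow, show h ^ i = res L a * x * (res L a)⁻¹ from hi]
      group
    exact hx' ▸ Subgroup.zpow_mem _ hd i
  set e := locIdl q (ellUnit L q) with he
  have heF : e ∈ fixedBy H (idl L) := locIdl_ellUnit_mem_fixedBy hHq
  have hae : res L a • e ∈ fixedBy H (idl L) := fun k hk => by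
    rw [smul_smul, show k * res L a = res L a * ((res L a)⁻¹ * k * res L a) by group, mul_smul,
      heF _ (by simpa using ‹H.Normal›.conj_mem _ hk (res L a)⁻¹)]
  obtain ⟨ca, hca, hca'⟩ := hθ.conj (res L a)
  obtain ⟨c, -, hc⟩ := hθ.conj h
  have hne : θ (res L a • e) ≠ 0 := by
    rw [hca' e heF]
    exact mul_ne_zero hca (hθ.locIdl_ellUnit_ne_zero hinert hζ hgH hg hq2 hun hHq)
  have hfix : h • res L a • e = res L a • e := by
    rw [smul_smul, show h * res L a = res L a * h' by rw [hconj]; group, mul_smul,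
      smul_locIdl_ellUnit q hd]
  have h1 := hc _ hae
  rw [hfix] at h1
  rw [hc f hf, mul_right_cancel₀ hne ((one_mul _).trans h1).symm, one_mul]

end Fermat.Agent.RT.Two.RingClass

end
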