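import Fermat.Agent.RT.Two.RingClass.IdealIdele
import Fermat.Agent.RT.Two.RingClass.Vanish

/-!
# The cubic character on ideals

The character of the idele of an ideal is multiplicative, trivial on principal ideals generated
by elements congruent to one modulo two, and at an unramified prime whose decomposition group
fixes `K` it vanishes exactly when that group meets `H` trivially.
-/

set_option autoImplicit false
set_option linter.unusedSectionVars false

noncomputable section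

namespace Fermat.Agent.RT.Two.RingClass

open ExtCitation Fermat.Agent.Arith IntermediateField Fermat.Agent.CFT.Local Fermat.Agent.CFT.Idele
open Fermat.Agent.CFT.Duality
open scoped NumberField Pointwise

local instance factPrimeIdealChar (q : Nat.Primes) : Fact (q : ℕ).Prime := ⟨q.2⟩

variable {L K : IntermediateField ℚ QBar} [FiniteDimensional ℚ L] [Normal ℚ L]
  [FiniteDimensional ℚ K] [Normal ℚ K]

/-- The part of the Galois group fixing `K`. -/
abbrev fixK (L K : IntermediateField ℚ QBar) [Normal ℚ L] : Subgroup (L ≃ₐ[ℚ] L) :=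
  K.fixingSubgroup.map (res L)

/-- The standing hypotheses: a cubic step fixing `K` and the cube roots of unity, unramified
away from two, and an element outside it acting trivially on the character. -/
structure Ctx (L K : IntermediateField ℚ QBar) [FiniteDimensional ℚ L] [Normal ℚ L]
    (H : Subgroup (L ≃ₐ[ℚ] L)) [Fintype H] (θ : idl L → ZMod 3) : Prop where
  le_top : K ≤ L
  isTheta : IsTheta H θ
  inert : ∀ q : Nat.Primes, (q : ℕ) ≠ 2 → localPart H q ⊓ inertia (E L q) = ⊥
  step : ∃ (ζ : L) (g : L ≃ₐ[ℚ] L), IsPrimitiveRoot ζ 3 ∧ Subgroup.zpowers g = H ∧ orderOf g = 3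
  le : H ≤ fixK L K
  twist : ∀ τ ∈ fixK L K, ∀ f ∈ fixedBy H (idl L), θ (τ • f) = θ f
  index : ∀ a ∈ fixK L K, a ∉ H → ∀ b ∈ fixK L K, b ∉ H → a⁻¹ * b ∈ H

variable {H : Subgroup (L ≃ₐ[ℚ] L)} [Fintype H] [H.Normal] {θ : idl L → ZMod 3}
  (C : Ctx L K H θ)

/-- The character on ideals. -/
def idealChar (θ : idl L → ZMod 3) (hKL : K ≤ L) (I : Ideal (𝓞 K)) : ZMod 3 :=
  θ (idealIdele hKL I)

include C

theorem Ctx.idealIdele_fixed (I : Ideal (𝓞 K)) :
    idealIdele C.le_top I ∈ fixedBy H (idl L) := fun h hh =>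
  idealIdele_mem_fixedBy C.le_top I h (C.le hh)

/-- **Multiplicativity.** -/
theorem Ctx.idealChar_mul {I J : Ideal (𝓞 K)} (hI : I ≠ ⊥) (hJ : J ≠ ⊥) :
    idealChar θ C.le_top (I * J) = idealChar θ C.le_top I + idealChar θ C.le_top J := by
  have hIJ : I * J ≠ ⊥ := mul_ne_zero hI hJ
  rw [idealChar, idealChar, idealChar, ← C.isTheta.map_mul _ (C.idealIdele_fixed I) _
    (C.idealIdele_fixed J)]
  have hmem := mul_mem (C.idealIdele_fixed I) (C.idealIdele_fixed J)
  rw [← sub_eq_zero, ← C.isTheta.map_div (C.idealIdele_fixed (I * J)) hmem]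
  refine C.isTheta.eq_zero_of_local C.inert (div_mem (C.idealIdele_fixed _) hmem) ∅ (by simp)
    fun q _ σ => ?_
  have hv : val (idealIdele C.le_top (I * J) / (idealIdele C.le_top I * idealIdele C.le_top J)) q σ
      = idealValue C.le_top (I * J) q σ /
        (idealValue C.le_top I q σ * idealValue C.le_top J q σ) := by
    rw [← val_idealIdele, ← val_idealIdele, ← val_idealIdele, ← val_mul]
    exact (valHom q σ).map_div _ _
  rw [hv]
  by_cases hq : (q : ℕ) = 2
  · simp [idealValue, if_pos hq]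
  refine ⟨(mem_unitGroup _).mpr ?_, fun h => absurd h hq⟩
  rw [Units.val_div_eq_div_val, Units.val_mul, norm_div, norm_mul]
  obtain ⟨ha, hamax⟩ := pick_spec C.le_top hI q σ
  obtain ⟨hb, hbmax⟩ := pick_spec C.le_top hJ q σ
  rw [norm_idealValue_eq C.le_top hq hI σ ha hamax, norm_idealValue_eq C.le_top hq hJ σ hb hbmax,
    norm_idealValue_eq C.le_top hq hIJ σ (Ideal.mul_mem_mul ha hb), absK_mul, div_self]
  · exact mul_ne_zero
      (absAt_pos (fun h => pick_ne_zero I _ (intoL_injective C.le_top (h.trans (map_zero _).symm)))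
        q σ).ne'
      (absAt_pos (fun h => pick_ne_zero J _ (intoL_injective C.le_top (h.trans (map_zero _).symm)))
        q σ).ne'
  · intro c hc
    refine Submodule.mul_induction_on hc (fun x hx y hy => ?_) fun x y hx hy =>
      (absK_add_le C.le_top q σ x y).trans (max_le hx hy)
    rw [absK_mul, absK_mul]
    exact mul_le_mul (hamax x hx) (hbmax y hy) (absK_nonneg C.le_top q σ y)
      (absK_nonneg C.le_top q σ _)

omit C in
theorem idealIdele_bot (hKL : K ≤ L) : idealIdele hKL (⊥ : Ideal (𝓞 K)) = 1 := by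
  refine val_ext fun q σ => ?_
  rw [val_idealIdele, val_one]
  by_cases hq : (q : ℕ) = 2
  · rw [idealValue, if_pos hq]
  · have h1 : pick (⊥ : Ideal (𝓞 K)) (absK hKL q σ) = 1 := dif_neg (by
      rintro ⟨a, ha, ha0, -⟩
      exact ha0 ((Submodule.mem_bot _).mp ha))
    refine Units.ext ?_
    rw [idealValue, if_neg hq]
    show localEmb (q : ℕ) L (σ (intoL hKL (pick _ _))) = 1
    rw [h1, map_one, map_one, map_one]

theorem Ctx.idealChar_bot : idealChar θ C.le_top ⊥ = 0 := by
  rw [idealChar, idealIdele_bot, C.isTheta.map_one]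

/-- **Principal ideals congruent to one modulo two.** -/
theorem Ctx.idealChar_span {α : 𝓞 K} (hα : α - 1 ∈ Ideal.span {(2 : 𝓞 K)}) :
    idealChar θ C.le_top (Ideal.span {α}) = 0 := by
  by_cases hα0 : α = 0
  · rw [hα0, Set.singleton_zero, Ideal.span_zero, C.idealChar_bot]
  set x : Lˣ := Units.mk0 (intoL C.le_top α)
    fun h => hα0 (intoL_injective C.le_top (h.trans (map_zero _).symm))
  have hp : prinL L x ∈ fixedBy H (idl L) := fun h hh => by
    rw [smul_prinL]
    exact congrArg _ (Units.ext (intoL_fixed C.le_top (C.le hh) α))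
  have hne : (Ideal.span {α} : Ideal (𝓞 K)) ≠ ⊥ := by simpa using hα0
  rw [idealChar, show idealIdele C.le_top (Ideal.span {α}) =
      idealIdele C.le_top (Ideal.span {α}) / prinL L x * prinL L x from (div_mul_cancel _ _).symm,
    C.isTheta.map_mul _ (div_mem (C.idealIdele_fixed _) hp) _ hp, C.isTheta.map_prin hp, add_zero]
  refine C.isTheta.eq_zero_of_local C.inert (div_mem (C.idealIdele_fixed _) hp) ∅ (by simp)
    fun q _ σ => ?_
  have hv : val (idealIdele C.le_top (Ideal.span {α}) / prinL L x) q σ =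
      idealValue C.le_top (Ideal.span {α}) q σ / val (prinL L x) q σ := by
    rw [← val_idealIdele]; exact (valHom q σ).map_div _ _
  rw [hv]
  obtain ⟨b, hb⟩ := Ideal.mem_span_singleton'.mp hα
  by_cases hq : (q : ℕ) = 2
  · have h2 : absK C.le_top q σ (α - 1) < 1 := by
      rw [← hb, absK_mul]
      refine lt_of_le_of_lt (mul_le_of_le_one_left (absK_nonneg C.le_top q σ _)
        (absAt_intoL_le_one C.le_top b q σ)) ?_
      show ‖localEmb (q : ℕ) L (σ (intoL C.le_top 2))‖ < 1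
      rw [map_ofNat, map_ofNat, map_ofNat]
      have := norm_natCast_self_lt_one (E L q)
      rwa [show ((q : ℕ) : E L q) = 2 by exact_mod_cast congrArg (Nat.cast : ℕ → E L q) hq] at this
    have hxα : ((val (prinL L x) q σ : (E L q)ˣ) : E L q) =
        localEmb (q : ℕ) L (σ (intoL C.le_top α)) := val_prinL x q σ
    set z := localEmb (q : ℕ) L (σ (intoL C.le_top α)) with hz
    have hz1 : ‖z - 1‖ < 1 := by
      have : z - 1 = localEmb (q : ℕ) L (σ (intoL C.le_top (α - 1))) := by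
        rw [hz, map_sub, map_sub, map_sub, map_one, map_one, map_one]
      rw [this]; exact h2
    have hzn : ‖z‖ = 1 := by
      rw [show z = 1 + (z - 1) by ring,
        IsUltrametricDist.norm_add_eq_max_of_norm_ne_norm (by rw [norm_one]; exact hz1.ne'),
        norm_one, max_eq_left hz1.le]
    rw [idealValue, if_pos hq, one_div]
    refine ⟨inv_mem ((mem_unitGroup _).mpr (by rw [hxα, hzn])), fun _ => ?_⟩
    rw [Units.val_inv_eq_inv_val, hxα, show z⁻¹ - 1 = -(z⁻¹ * (z - 1)) by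
      rw [mul_sub, inv_mul_cancel₀ (norm_ne_zero_iff.mp (by rw [hzn]; exact one_ne_zero))]; ring,
      norm_neg, norm_mul, norm_inv, hzn, inv_one, one_mul]
    exact hz1
  · refine ⟨(mem_unitGroup _).mpr ?_, fun h => absurd h hq⟩
    rw [Units.val_div_eq_div_val, norm_div, norm_idealValue_eq C.le_top hq hne σ
      (Ideal.mem_span_singleton_self α) fun c hc => ?_, val_prinL]
    · exact div_self (absAt_pos x.ne_zero q σ).ne'
    · exact absK_le_of_span C.le_top q σ (absK_nonneg C.le_top q σ α)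
        (fun d hd => (congrArg _ (Set.mem_singleton_iff.mp hd)).le) hc

omit C in
theorem absK_fixK (hKL : K ≤ L) (q : Nat.Primes) (σ : L ≃ₐ[ℚ] L) {h : L ≃ₐ[ℚ] L}
    (hh : h ∈ fixK L K) : absK hKL q (σ * h) = absK hKL q σ := funext fun a => by
  show ‖localEmb (q : ℕ) L ((σ * h) (intoL hKL a))‖ = _
  rw [AlgEquiv.mul_apply, intoL_fixed hKL hh]; rfl

omit C in
/-- Places of `L` inducing the same valuation on `K` differ by an element fixing `K`, when the
decomposition group fixes `K`. -/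
theorem exists_separating_mem (hKL : K ≤ L) {q : Nat.Primes} (hD : decomp L q ≤ fixK L K)
    {P : Ideal (𝓞 K)} {σ₀ σ : L ≃ₐ[ℚ] L} (hP : ∀ x, x ∈ P ↔ absK hKL q σ₀ x < 1)
    (hσ : σ * σ₀⁻¹ ∉ fixK L K) : ∃ b ∈ P, absK hKL q σ b = 1 := by
  by_contra hne
  push Not at hne
  have hlt : ∀ b ∈ P, absK hKL q σ b < 1 := fun b hb =>
    lt_of_le_of_ne (absAt_intoL_le_one hKL b q σ) (hne b hb)
  have : NumberField K := ⟨⟩
  have hprime : P.IsPrime := by
    refine ⟨fun h => ?_, fun {x y} hxy => ?_⟩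
    · have := (hP 1).mp (h ▸ Submodule.mem_top)
      simp [absK, absAt] at this
    · rw [hP, absK_mul] at hxy
      rw [hP, hP]
      by_contra hc
      push Not at hc
      exact absurd hxy (not_lt.mpr (one_le_mul_of_one_le_of_one_le hc.1 hc.2))
  have hP0 : P ≠ ⊥ := by
    intro h
    have hm : ((q : ℕ) : 𝓞 K) ∈ P := (hP _).mpr (by
      rw [absK, map_natCast, absAt_natCast, Padic.norm_p]
      exact inv_lt_one_of_one_lt₀ (Nat.one_lt_cast.mpr q.2.one_lt))
    rw [h, Submodule.mem_bot, Nat.cast_eq_zero] at hm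
    exact q.2.ne_zero hm
  have hmax : P.IsMaximal := hprime.isMaximal hP0
  have hnotmem : ∀ b, b ∉ P → absK hKL q σ b = 1 := by
    intro b hb
    refine le_antisymm (absAt_intoL_le_one hKL b q σ) (not_lt.mp fun hlt' => ?_)
    obtain ⟨c, p, hp, hcp⟩ := hmax.exists_inv hb
    have h1 : absK hKL q σ 1 < 1 := by
      rw [← hcp]
      refine lt_of_le_of_lt (absK_add_le hKL q σ _ _) (max_lt ?_ (hlt p hp))
      rw [absK_mul]
      exact lt_of_le_of_lt (mul_le_of_le_one_left (absK_nonneg hKL q σ b)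
        (absAt_intoL_le_one hKL c q σ)) hlt'
    simp [absK, absAt] at h1
  set s₀ := lift L σ₀
  set s := lift L σ
  obtain ⟨t, ht⟩ := (mem_range_toGlobal_iff (q : ℕ) K (res K (s * s₀⁻¹))).2 fun x hx => by
    rw [res_apply, AlgEquiv.mul_apply]
    have hyK : s₀⁻¹ (x : QBar) ∈ K := res_apply K s₀⁻¹ x ▸ SetLike.coe_mem _
    have hmem : s₀⁻¹ (x : QBar) ∈ s₀⁻¹ • padicPlace (q : ℕ) :=
      ValuationSubring.smul_mem_pointwise_smul s₀⁻¹ _ _ hx
    obtain ⟨b, hbK, hbi, hxb, hbn⟩ := exists_fraction_mem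
      (liesOverPrime_smul_iff.mpr (padicPlace_liesOverPrime (q : ℕ))) q.2 K hyK hmem
    set β : 𝓞 K := ⟨⟨b, hbK⟩, (isIntegral_algHom_iff (K.val.restrictScalars ℤ)
      K.val.injective).mp hbi⟩
    set γ : 𝓞 K := ⟨⟨s₀⁻¹ (x : QBar) * b, mul_mem hyK hbK⟩,
      (isIntegral_algHom_iff (K.val.restrictScalars ℤ) K.val.injective).mp hxb⟩
    have hval : ∀ (τ : L ≃ₐ[ℚ] L) (a : 𝓞 K),
        absK hKL q τ a = ‖emb q (lift L τ ((a : K) : QBar))‖ := fun τ a => by
      show ‖localEmb (q : ℕ) L (τ (intoL hKL a))‖ = _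
      rw [norm_localEmb]
      conv_lhs => rw [← res_lift L τ, res_apply, coe_intoL]
    have hβ : β ∉ P := fun h => hbn (by
      rw [← inv_smul_smul s₀ b]
      exact smul_mem_nonunits_smul_iff.mpr ((mem_nonunits_padicPlace_iff (q : ℕ)).mpr
        ((hval σ₀ β).symm.trans_lt ((hP β).mp h))))
    have h1 : ‖emb q (s b)‖ = 1 := (hval σ β).symm.trans (hnotmem β hβ)
    have h2 : ‖emb q (s (s₀⁻¹ (x : QBar) * b))‖ ≤ 1 :=
      (hval σ γ).symm.trans_le (absAt_intoL_le_one hKL γ q σ)
    rw [map_mul, map_mul, norm_mul, h1, mul_one] at h2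
    exact (mem_padicPlace_iff_norm (q : ℕ)).mpr h2
  obtain ⟨τ, rfl⟩ := AlgEquiv.restrictNormalHom_surjective (K₁ := E K q) (Ω q) t
  rw [toGlobal_restrict] at ht
  have hk : (loc q τ)⁻¹ * (s * s₀⁻¹) ∈ K.fixingSubgroup := by
    rw [← res_eq_iff]; exact ht
  refine hσ ?_
  have h3 := mul_mem (hD (show res L (loc q τ) ∈ decomp L q from
    ⟨_, toGlobal_restrict (q : ℕ) L τ⟩)) (Subgroup.mem_map_of_mem (res L) hk)
  rwa [map_mul, map_inv, map_mul, map_inv, res_lift, res_lift, mul_inv_cancel_left] at h3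

omit C in
theorem absK_le_inv {q : Nat.Primes} (hun : inertia (E L q) = ⊥) (hKL : K ≤ L) {σ : L ≃ₐ[ℚ] L}
    {a : 𝓞 K} (ha : absK hKL q σ a < 1) : absK hKL q σ a ≤ ((q : ℕ) : ℝ)⁻¹ := by
  by_cases ha0 : a = 0
  · rw [ha0, absK_zero]; positivity
  set x : E L q := localEmb (q : ℕ) L (σ (intoL hKL a))
  have hx : x ≠ 0 := (map_ne_zero _).mpr ((map_ne_zero _).mpr
    fun h => ha0 (intoL_injective hKL (h.trans (map_zero _).symm)))
  obtain ⟨r, hr⟩ := exists_padic_norm_eq hun (Units.mk0 x hx)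
  have hlt : ‖(r : ℚ_[(q : ℕ)])‖ < 1 := hr ▸ ha
  show ‖x‖ ≤ _
  rw [show ‖x‖ = ‖(r : ℚ_[(q : ℕ)])‖ from hr, Padic.norm_eq_zpow_neg_valuation r.ne_zero] at *
  rw [← zpow_neg_one]
  refine zpow_le_zpow_right₀ (Nat.one_le_cast.mpr q.2.one_le) ?_
  by_contra hc
  push Not at hc
  exact absurd hlt (not_lt.mpr (one_le_zpow₀ (Nat.one_le_cast.mpr q.2.one_le) (by omega)))

/-- **At a prime.** -/
theorem Ctx.idealChar_prime {P : Ideal (𝓞 K)} {q : Nat.Primes} (hq : (q : ℕ) ≠ 2)
    (hun : inertia (E L q) = ⊥) {k : L ≃ₐ[ℚ] L} (hk : decomp L q = Subgroup.zpowers k)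
    (hkK : k ∈ fixK L K) {σ₀ : L ≃ₐ[ℚ] L} (hP : ∀ x, x ∈ P ↔ absK C.le_top q σ₀ x < 1) :
    (localPart H q = ⊥ → idealChar θ C.le_top P = 0) ∧
      (H ≤ decomp L q → idealChar θ C.le_top P ≠ 0) := by
  classical
  have : IsGalois ℚ K := ⟨⟩
  have : K.fixingSubgroup.Normal := (InfiniteGalois.normal_iff_isGalois K).mpr ‹_›
  have hKn : (fixK L K).Normal :=
    Subgroup.Normal.map ‹_› (res L) (AlgEquiv.restrictNormalHom_surjective (K₁ := L) QBar)
  have hD : decomp L q ≤ fixK L K := hk ▸ Subgroup.zpowers_le.mpr hkK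
  set f := σ₀ • idealIdele C.le_top P
  have hf : f ∈ fixedBy H (idl L) := fun h hh => by
    rw [smul_smul, show h * σ₀ = σ₀ * (σ₀⁻¹ * h * σ₀) by group, mul_smul,
      C.idealIdele_fixed P _ (by simpa using ‹H.Normal›.conj_mem _ hh σ₀⁻¹)]
  have hP0 : P ≠ ⊥ := by
    intro h
    have hm : ((q : ℕ) : 𝓞 K) ∈ P := (hP _).mpr (by
      rw [absK, map_natCast, absAt_natCast, Padic.norm_p]
      exact inv_lt_one_of_one_lt₀ (Nat.one_lt_cast.mpr q.2.one_lt))
    rw [h, Submodule.mem_bot, Nat.cast_eq_zero] at hm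
    exact q.2.ne_zero hm
  have hqP : ((q : ℕ) : 𝓞 K) ∈ P := (hP _).mpr (by
    rw [absK, map_natCast, absAt_natCast, Padic.norm_p]
    exact inv_lt_one_of_one_lt₀ (Nat.one_lt_cast.mpr q.2.one_lt))
  have hval : ∀ (q' : Nat.Primes) (σ : L ≃ₐ[ℚ] L), (q' : ℕ) ≠ 2 → ‖((val f q' σ : (E L q')ˣ) : E L q')‖ =
      if q' = q ∧ σ ∈ fixK L K then ((q : ℕ) : ℝ)⁻¹ else 1 := by
    intro q' σ hq'
    rw [val_smul, val_idealIdele]
    by_cases h : q' = q ∧ σ ∈ fixK L K
    · obtain ⟨rfl, hσ⟩ := h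
      rw [if_pos ⟨rfl, hσ⟩]
      have hconj : σ₀⁻¹ * σ * σ₀ ∈ fixK L K := by simpa using hKn.conj_mem _ hσ σ₀⁻¹
      have habs : absK C.le_top q' (σ * σ₀) = absK C.le_top q' σ₀ := by
        rw [show σ * σ₀ = σ₀ * (σ₀⁻¹ * σ * σ₀) by group, absK_fixK C.le_top q' σ₀ hconj]
      have hat : absK C.le_top q' σ₀ ((q' : ℕ) : 𝓞 K) = ((q' : ℕ) : ℝ)⁻¹ := by
        rw [absK, map_natCast, absAt_natCast, Padic.norm_p]
      rw [norm_idealValue_eq C.le_top hq' hP0 _ hqP fun b hb => ?_, habs, hat]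
      rw [habs, hat]
      exact absK_le_inv hun C.le_top ((hP b).mp hb)
    · rw [if_neg h]
      rcases eq_or_ne q' q with rfl | hne
      · obtain ⟨b, hb, hb1⟩ := exists_separating_mem C.le_top hD hP (σ := σ * σ₀)
          (by rw [mul_inv_cancel_right]; exact fun hc => h ⟨rfl, hc⟩)
        rw [norm_idealValue_eq C.le_top hq' hP0 _ hb fun c _ =>
          hb1 ▸ absAt_intoL_le_one C.le_top c q' _, hb1]
      · have hat : absK C.le_top q' (σ * σ₀) ((q : ℕ) : 𝓞 K) = 1 := by
          rw [absK, map_natCast, absAt_natCast, Padic.norm_natCast_eq_one_iff]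
          exact (Nat.coprime_primes q'.2 q.2).mpr fun e => hne (Subtype.ext e)
        rw [norm_idealValue_eq C.le_top hq' hP0 _ hqP fun c _ =>
          hat ▸ absAt_intoL_le_one C.le_top c q' _, hat]
  have hval2 : ∀ (q' : Nat.Primes) (σ : L ≃ₐ[ℚ] L), (q' : ℕ) = 2 → val f q' σ = 1 := fun q' σ h => by
    rw [val_smul, val_idealIdele, idealValue, if_pos h]
  obtain ⟨c, hc0, hc⟩ := C.isTheta.conj σ₀
  have hθf : θ f = c * idealChar θ C.le_top P := hc _ (C.idealIdele_fixed P)
  constructor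
  · intro hbot
    have h0 : θ f = 0 := C.isTheta.eq_zero_of_local C.inert hf {q}
      (fun q' hq' => by rw [Finset.mem_singleton.mp hq']; exact hbot) fun q' hq' σ => by
        by_cases h2 : (q' : ℕ) = 2
        · rw [hval2 q' σ h2]
          exact ⟨one_mem _, fun _ => by simp⟩
        · refine ⟨(mem_unitGroup _).mpr ?_, fun h => absurd h h2⟩
          rw [hval q' σ h2, if_neg fun h => hq' (Finset.mem_singleton.mpr h.1)]
    exact (mul_eq_zero.mp (hθf.symm.trans h0)).resolve_left hc0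
  · intro hHq h0
    obtain ⟨ζ, g, hζ, hgH, hg⟩ := C.step
    set e := locIdl q (ellUnit L q)
    have he : e ∈ fixedBy H (idl L) := locIdl_ellUnit_mem_fixedBy hHq
    have hne : θ e ≠ 0 :=
      C.isTheta.locIdl_ellUnit_ne_zero C.inert hζ hgH hg hq hun hHq
    -- the idele with value `ℓ` on the places of `fixK`
    obtain ⟨e₁, he₁, hθe₁, hv₁⟩ : ∃ e₁ ∈ fixedBy H (idl L), θ e₁ ≠ 0 ∧
        ∀ (q' : Nat.Primes) (σ : L ≃ₐ[ℚ] L), val e₁ q' σ ∈ unitGroup (E L q') ∧
          ((q' : ℕ) = 2 → val e₁ q' σ = 1) ∧ ¬ (q' = q ∧ σ ∈ fixK L K) ∨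
          (q' = q ∧ σ ∈ fixK L K ∧
            ‖((val e₁ q' σ : (E L q')ˣ) : E L q')‖ = ((q : ℕ) : ℝ)⁻¹) := by
      have hv : ∀ (q' : Nat.Primes) (σ : L ≃ₐ[ℚ] L), (¬ (q' = q ∧ σ ∈ decomp L q) → val e q' σ = 1) ∧
          (q' = q → σ ∈ decomp L q →
            ‖((val e q' σ : (E L q')ˣ) : E L q')‖ = ((q : ℕ) : ℝ)⁻¹) := by
        intro q' σ
        refine ⟨fun h => ?_, ?_⟩
        · rcases eq_or_ne q' q with rfl | hne
          · exact val_locIdl_of_notMem q' _ fun hm => h ⟨rfl, hm⟩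
          · exact val_locIdl_of_ne q _ hne σ
        · rintro rfl hm
          obtain ⟨t, rfl⟩ := MonoidHom.mem_range.1 hm
          rw [val_locIdl_self, smul_ellUnit, ellUnit, Units.val_mk0,
            ← map_natCast (algebraMap ℚ_[(q' : ℕ)] (E L q')) (q' : ℕ), norm_algebraMap',
            Padic.norm_p]
      by_cases hKD : fixK L K ≤ decomp L q
      · refine ⟨e, he, hne, fun q' σ => ?_⟩
        by_cases hm : q' = q ∧ σ ∈ fixK L K
        · exact Or.inr ⟨hm.1, hm.2, (hv q' σ).2 hm.1 (hKD hm.2)⟩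
        · refine Or.inl ?_
          rw [(hv q' σ).1 fun h => hm ⟨h.1, hD h.2⟩]
          exact ⟨one_mem _, fun _ => rfl, hm⟩
      · obtain ⟨τ, hτK, hτD⟩ := SetLike.not_le_iff_exists.mp hKD
        -- the decomposition group is `H`
        have hDH : decomp L q ≤ H := fun d hd => by
          by_contra hdH
          refine hτD ?_
          have := C.index d (hD hd) hdH τ hτK fun h => hτD (hHq h)
          simpa using mul_mem hd (hHq this)
        have hτH : τ ∉ H := fun h => hτD (hHq h)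
        have hτe : τ • e ∈ fixedBy H (idl L) := fun h hh => by
          rw [smul_smul, show h * τ = τ * (τ⁻¹ * h * τ) by group, mul_smul,
            he _ (by simpa using ‹H.Normal›.conj_mem _ hh τ⁻¹)]
        refine ⟨e * τ • e, mul_mem he hτe, ?_, fun q' σ => ?_⟩
        · rw [C.isTheta.map_mul _ he _ hτe, C.twist τ hτK e he, ← two_mul]
          exact mul_ne_zero (by decide) hne
        rw [val_mul, val_smul]
        by_cases hm : q' = q ∧ σ ∈ fixK L K
        · refine Or.inr ⟨hm.1, hm.2, ?_⟩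
          rw [Units.val_mul, norm_mul]
          by_cases hσD : σ ∈ decomp L q
          · rw [(hv q' σ).2 hm.1 hσD, (hv q' (σ * τ)).1 (fun h => hτD
              (by simpa using mul_mem (inv_mem hσD) h.2)), Units.val_one, norm_one, mul_one]
          · have hστ : σ * τ ∈ decomp L q := by
              refine hHq ?_
              by_contra hn
              have := C.index σ hm.2 (fun h => hσD (hHq h)) (σ * τ) (mul_mem hm.2 hτK) hn
              exact hτH (by simpa using this)
            rw [(hv q' σ).1 (fun h => hσD h.2), (hv q' (σ * τ)).2 hm.1 hστ, Units.val_one,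
              norm_one, one_mul]
        · refine Or.inl ?_
          rw [(hv q' σ).1 fun h => hm ⟨h.1, hD h.2⟩, (hv q' (σ * τ)).1 fun h => hm ⟨h.1, by
            simpa using mul_mem (hD h.2) (inv_mem hτK)⟩, one_mul]
          exact ⟨one_mem _, fun _ => rfl, hm⟩
    have hd : θ (f / e₁) = 0 := C.isTheta.eq_zero_of_local C.inert (div_mem hf he₁) ∅ (by simp)
      fun q' _ σ => by
        have hdiv : val (f / e₁) q' σ = val f q' σ / val e₁ q' σ := (valHom q' σ).map_div _ _
        rw [hdiv]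
        by_cases h2 : (q' : ℕ) = 2
        · rcases hv₁ q' σ with ⟨-, h1, -⟩ | ⟨he', -, -⟩
          · rw [hval2 q' σ h2, h1 h2, div_one]
            exact ⟨one_mem _, fun _ => by simp⟩
          · exact absurd (he' ▸ h2) hq
        · refine ⟨(mem_unitGroup _).mpr ?_, fun h => absurd h h2⟩
          rw [Units.val_div_eq_div_val, norm_div, hval q' σ h2]
          rcases hv₁ q' σ with ⟨hu, -, hn⟩ | ⟨he', hs, hu⟩
          · rw [if_neg hn, (mem_unitGroup _).mp hu, div_one]
          · rw [if_pos ⟨he', hs⟩, hu, div_self]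
            exact inv_ne_zero (Nat.cast_ne_zero.mpr q.2.ne_zero)
    rw [C.isTheta.map_div hf he₁, hθf, h0, mul_zero, zero_sub, neg_eq_zero] at hd
    exact hθe₁ hd

end Fermat.Agent.RT.Two.RingClass

end
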