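import Fermat.Agent.Deform.Matrix
import Fermat.Agent.RT.Two.RingClass.IdealChar

/-!
# The ring class character of a dihedral representation

For `r : Gal(ℚ̄/ℚ) → GL₂(𝔽₂)` with image of order six, unramified away from two on the kernel of
its sign, the ideals of the quadratic field `K` carry a character of order three, trivial on the
principal ideals generated by elements congruent to one modulo two, which at a split prime
vanishes exactly when the Frobenius is in the kernel of `r`.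
-/

set_option autoImplicit false

noncomputable section

namespace Fermat.Agent.RT.Two.RingClass

open ExtCitation Fermat.Agent.Arith Fermat.Agent.Deform IntermediateField Fermat.Agent.CFT.Local
  Fermat.Agent.CFT.Idele
open Fermat.Agent.CFT.Duality
open scoped NumberField Pointwise

local instance factPrimeRingClassMain (q : Nat.Primes) : Fact (q : ℕ).Prime := ⟨q.2⟩

theorem card_pow_three_eq_one :
    Fintype.card {X : M2 (ZMod 2) // X ^ 3 = 1} = 3 := by decide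

theorem zeta_cases {ζ : QBar} (hζ : IsPrimitiveRoot ζ 3) (σ : GQ) : σ ζ = ζ ∨ σ ζ = ζ ^ 2 := by
  obtain ⟨j, hj3, hj⟩ := hζ.eq_pow_of_pow_eq_one (ξ := σ ζ) (by
    rw [← map_pow, hζ.pow_eq_one, map_one])
  interval_cases j
  · rw [pow_zero] at hj
    exact absurd (σ.injective (hj.symm.trans (map_one σ).symm)) (hζ.ne_one (by norm_num))
  · exact Or.inl (hj.symm.trans (pow_one ζ))
  · exact Or.inr hj.symm

theorem sq_apply_zeta {ζ : QBar} (hζ : IsPrimitiveRoot ζ 3) (σ : GQ) : (σ * σ) ζ = ζ := by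
  rw [AlgEquiv.mul_apply]
  rcases zeta_cases hζ σ with h | h <;> rw [h]
  · exact h
  · rw [map_pow, h, ← pow_mul, show 2 * 2 = 3 + 1 from rfl, pow_succ, hζ.pow_eq_one, one_mul]

theorem conj_apply_zeta {ζ : QBar} (hζ : IsPrimitiveRoot ζ 3) {σ : GQ} (hσ : σ ζ = ζ) (g : GQ) :
    (g * σ * g⁻¹) ζ = ζ := by
  have h2 : σ (g⁻¹ ζ) = g⁻¹ ζ := by
    rcases zeta_cases hζ g⁻¹ with h | h <;> rw [h]
    · exact hσ
    · rw [map_pow, hσ]
  rw [AlgEquiv.mul_apply, AlgEquiv.mul_apply, h2, ← AlgEquiv.mul_apply, mul_inv_cancel,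
    AlgEquiv.one_apply]

theorem apply_zeta_eq {ζ : QBar} (hζ : IsPrimitiveRoot ζ 3) {σ σ' : GQ} (h : σ ζ ≠ ζ)
    (h' : σ' ζ ≠ ζ) : σ ζ = σ' ζ :=
  ((zeta_cases hζ σ).resolve_left h).trans ((zeta_cases hζ σ').resolve_left h').symm

theorem pow_two_ne_one : ∀ X : M2 (ZMod 2), X ^ 3 = 1 → X ≠ 1 → X ^ 2 ≠ 1 := by decide

/-- The field cut out by `r` and the cube roots of unity. -/
theorem exists_cut_field (r : GQ →* M2 (ZMod 2)) (hfin : GaloisFactorsThroughFiniteLevel r)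
    {ζ' : QBar} (hζ' : IsPrimitiveRoot ζ' 3) :
    ∃ (L : IntermediateField ℚ QBar) (_ : FiniteDimensional ℚ L) (_ : Normal ℚ L),
      ζ' ∈ L ∧ ∀ σ : GQ, res L σ = 1 ↔ r σ = 1 ∧ σ ζ' = ζ' := by
  have : IsGalois ℚ QBar := qBar_isGalois
  obtain ⟨L₀, hL₀, hr₀⟩ := hfin
  let Z : Subgroup GQ := MulAction.stabilizer GQ ζ'
  have hZ : ∀ σ, σ ∈ Z ↔ σ ζ' = ζ' := fun σ => MulAction.mem_stabilizer_iff
  have : Z.Normal :=
    ⟨fun σ hσ g => (hZ _).mpr (conj_apply_zeta hζ' ((hZ _).mp hσ) g)⟩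
  let N : Subgroup GQ := r.ker ⊓ Z
  have hNn : N.Normal := inferInstanceAs (r.ker ⊓ Z).Normal
  have : FiniteDimensional ℚ (IntermediateField.adjoin ℚ {ζ'}) :=
    IntermediateField.adjoin.finiteDimensional (Algebra.IsIntegral.isIntegral _)
  have hNo : IsOpen (N : Set GQ) := by
    refine Subgroup.isOpen_mono ?_
      (IntermediateField.fixingSubgroup_isOpen (L₀ ⊔ IntermediateField.adjoin ℚ {ζ'}))
    intro σ hσ
    rw [IntermediateField.mem_fixingSubgroup_iff] at hσ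
    exact ⟨hr₀ σ fun x hx => hσ x ((le_sup_left : L₀ ≤ L₀ ⊔ _) hx),
      (hZ σ).mpr (hσ _ ((le_sup_right : IntermediateField.adjoin ℚ {ζ'} ≤ L₀ ⊔ _)
        (IntermediateField.mem_adjoin_simple_self ℚ _)))⟩
  set L := IntermediateField.fixedField N
  have hLN : L.fixingSubgroup = N :=
    InfiniteGalois.fixingSubgroup_fixedField ⟨N, N.isClosed_of_isOpen hNo⟩
  have : FiniteDimensional ℚ L :=
    (InfiniteGalois.isOpen_iff_finite L).mp (by rw [hLN]; exact hNo)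
  have : IsGalois ℚ L := (InfiniteGalois.normal_iff_isGalois L).mp (by rw [hLN]; exact hNn)
  have : Normal ℚ L := IsGalois.to_normal
  exact ⟨L, ‹_›, ‹_›, fun σ => (hZ σ.1).mp σ.2.2, fun σ => by
    rw [res_eq_one_iff, hLN, Subgroup.mem_inf, MonoidHom.mem_ker, hZ]⟩

/-- **The ring class character.** -/
theorem exists_ringClassChar (r : GQ →* M2 (ZMod 2)) (hfin : GaloisFactorsThroughFiniteLevel r)
    (K : IntermediateField ℚ QBar) [FiniteDimensional ℚ K] [Normal ℚ K]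
    (hK : ∀ σ, σ ∈ K.fixingSubgroup ↔ r σ ^ 3 = 1)
    (htriv : ∃ σ, r σ ^ 3 = 1 ∧ r σ ≠ 1)
    (hunr : ∀ v : ℕ, v.Prime → v ≠ 2 → ∀ A : ValuationSubring QBar, A.LiesOverPrime v →
      ∀ τ ∈ A.inertiaSubgroupIn ℚ, r τ ^ 2 = 1) :
    ∃ ψ : Ideal (𝓞 K) → ZMod 3,
      (∀ I J, I ≠ ⊥ → J ≠ ⊥ → ψ (I * J) = ψ I + ψ J) ∧
      (∀ α : 𝓞 K, α - 1 ∈ Ideal.span {(2 : 𝓞 K)} → ψ (Ideal.span {α}) = 0) ∧
      ∀ ℓ : ℕ, ℓ.Prime → ℓ ≠ 2 → ℓ ≠ 3 → ∀ A : ValuationSubring QBar, A.LiesOverPrime ℓ →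
        (∀ τ ∈ A.inertiaSubgroupIn ℚ, r τ = 1) → ∀ F, A.IsFrobeniusAt F ℓ → r F ^ 3 = 1 →
        ∀ P : Ideal (𝓞 K), (∀ x : 𝓞 K, x ∈ P ↔ ((x : K) : QBar) ∈ A.nonunits) →
          (ψ P = 0 ↔ r F = 1) := by
  classical
  have : IsGalois ℚ QBar := qBar_isGalois
  have : Fact (Nat.Prime 3) := ⟨Nat.prime_three⟩
  obtain ⟨ζ', hζ'⟩ : ∃ z : QBar, IsPrimitiveRoot z 3 :=
    HasEnoughRootsOfUnity.exists_primitiveRoot QBar 3
  obtain ⟨L, hLf, hLn, hζL, hres⟩ := exists_cut_field r hfin hζ'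
  have : IsGalois ℚ K := ⟨⟩
  have hKn : K.fixingSubgroup.Normal := (InfiniteGalois.normal_iff_isGalois K).mpr ‹_›
  have hKL : K ≤ L := by
    rw [← InfiniteGalois.fixedField_fixingSubgroup L]
    exact (IntermediateField.le_iff_le _ _).mpr fun σ hσ =>
      (hK σ).mpr (by rw [((hres σ).mp ((res_eq_one_iff L).mpr hσ)).1, one_pow])
  set ζ : L := ⟨ζ', hζL⟩
  have hζ : IsPrimitiveRoot ζ 3 :=
    IsPrimitiveRoot.of_map_of_injective (f := L.val) hζ' L.val.injective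
  -- the cubic step
  let Z : Subgroup GQ := MulAction.stabilizer GQ ζ'
  have hfixz : ∀ σ, σ ∈ Z ↔ σ ζ' = ζ' := fun σ => MulAction.mem_stabilizer_iff
  have : Z.Normal :=
    ⟨fun σ hσ g => (hfixz _).mpr (conj_apply_zeta hζ' ((hfixz _).mp hσ) g)⟩
  set T : Subgroup GQ := K.fixingSubgroup ⊓ Z
  have : T.Normal := inferInstanceAs (K.fixingSubgroup ⊓ Z).Normal
  set H : Subgroup (L ≃ₐ[ℚ] L) := T.map (res L) with hH
  have : H.Normal :=
    Subgroup.Normal.map ‹_› (res L) (AlgEquiv.restrictNormalHom_surjective (K₁ := L) QBar)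
  have hmemH : ∀ σ : GQ, res L σ ∈ H ↔ r σ ^ 3 = 1 ∧ σ ζ' = ζ' := fun σ => by
    refine ⟨?_, fun h => Subgroup.mem_map_of_mem _ ⟨(hK σ).mpr h.1, (hfixz σ).mpr h.2⟩⟩
    rintro ⟨σ', ⟨h1, h2⟩, e⟩
    obtain ⟨e1, e2⟩ := (hres (σ'⁻¹ * σ)).mp (by rw [map_mul, map_inv, e, inv_mul_cancel])
    have h3 : r σ = r σ' := by
      rw [show σ = σ' * (σ'⁻¹ * σ) by group, map_mul, e1, mul_one]
    refine ⟨h3 ▸ (hK σ').mp h1, ?_⟩
    rw [show σ = σ' * (σ'⁻¹ * σ) by group, AlgEquiv.mul_apply, e2, (hfixz σ').mp h2]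
  have hmemK : ∀ σ : GQ, res L σ ∈ fixK L K ↔ r σ ^ 3 = 1 := fun σ => by
    refine ⟨?_, fun h => Subgroup.mem_map_of_mem _ ((hK σ).mpr h)⟩
    rintro ⟨σ', h1, e⟩
    obtain ⟨e1, -⟩ := (hres (σ'⁻¹ * σ)).mp (by rw [map_mul, map_inv, e, inv_mul_cancel])
    rw [show σ = σ' * (σ'⁻¹ * σ) by group, map_mul, e1, mul_one]
    exact (hK σ').mp h1
  have hsq := sq_apply_zeta hζ'
  have hcube := pow_two_ne_one
  obtain ⟨σ₀, hσ₀, hσ₁⟩ := htriv
  set g := res L (σ₀ * σ₀) with hgdef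
  have hgH : g ∈ H := (hmemH _).mpr ⟨by
    rw [map_mul, ← pow_two, ← pow_mul, show 2 * 3 = 3 * 2 from rfl, pow_mul, hσ₀, one_pow],
    hsq σ₀⟩
  have hg1 : g ≠ 1 := fun h => hcube _ hσ₀ hσ₁ (by
    rw [pow_two, ← map_mul]; exact ((hres _).mp h).1)
  have hcard : Nat.card H ≤ 3 := by
    rw [← card_pow_three_eq_one, ← Nat.card_eq_fintype_card]
    refine Nat.card_le_card_of_injective (fun h : H => (⟨r (lift L (h : L ≃ₐ[ℚ] L)),
      ((hmemH _).mp (by rw [res_lift]; exact h.2)).1⟩ : {X : M2 (ZMod 2) // X ^ 3 = 1}))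
      fun a b hab => Subtype.ext ?_
    have e : r (lift L (a : L ≃ₐ[ℚ] L)) = r (lift L (b : L ≃ₐ[ℚ] L)) := congrArg Subtype.val hab
    have ha := ((hmemH (lift L (a : L ≃ₐ[ℚ] L))).mp (by rw [res_lift]; exact a.2)).2
    have hb := ((hmemH (lift L (b : L ≃ₐ[ℚ] L))).mp (by rw [res_lift]; exact b.2)).2
    set u := lift L (a : L ≃ₐ[ℚ] L)
    set v := lift L (b : L ≃ₐ[ℚ] L)
    have h1 : res L (u⁻¹ * v) = 1 := (hres _).mpr ⟨by
      rw [map_mul, ← e, ← map_mul, inv_mul_cancel, map_one], by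
      rw [AlgEquiv.mul_apply, hb]
      conv_lhs => rw [← ha, ← AlgEquiv.mul_apply, inv_mul_cancel, AlgEquiv.one_apply]⟩
    rw [map_mul, map_inv, res_lift, res_lift, inv_mul_eq_one] at h1
    exact h1
  have : Finite H := inferInstance
  have : Fintype H := Fintype.ofFinite _
  have hord : orderOf g = 3 := by
    refine (orderOf_eq_prime_iff (p := 3)).mpr ⟨?_, hg1⟩
    rw [hgdef, ← map_pow, hres]
    refine ⟨?_, ?_⟩
    · rw [map_pow, map_mul, ← pow_two, ← pow_mul, show 2 * 3 = 3 * 2 from rfl, pow_mul, hσ₀,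
        one_pow]
    · rw [pow_succ, pow_two, AlgEquiv.mul_apply, AlgEquiv.mul_apply, hsq, hsq, hsq]
  have hgen : Subgroup.zpowers g = H :=
    Subgroup.eq_of_le_of_card_ge (Subgroup.zpowers_le.mpr hgH)
      (by rw [Nat.card_zpowers, hord]; exact hcard)
  obtain ⟨θ, hθ⟩ := exists_isTheta hζ hgen hord
  have hgenH : ∀ x ∈ H, x ≠ 1 → Subgroup.zpowers x = H := fun x hx hx1 => by
    refine Subgroup.eq_of_le_of_card_ge (Subgroup.zpowers_le.mpr hx) (hcard.trans (le_of_eq ?_))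
    rw [Nat.card_zpowers]
    refine (((Nat.dvd_prime Nat.prime_three).mp ?_).resolve_left (orderOf_eq_one_iff.not.mpr hx1)).symm
    rw [← hord, ← Nat.card_zpowers g, hgen, ← Nat.card_zpowers]
    exact Subgroup.card_dvd_of_le (Subgroup.zpowers_le.mpr hx)
  -- inertia away from two meets the step trivially
  have hinert : ∀ q : Nat.Primes, (q : ℕ) ≠ 2 → localPart H q ⊓ inertia (E L q) = ⊥ := by
    intro q hq
    refine eq_bot_iff.mpr fun t ht => ?_
    obtain ⟨σ, hσ, e⟩ := exists_inertia_of_mem_inertia (q : ℕ) L ht.2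
    have h1 := (hmemH σ).mp (by rw [show res L σ = toGlobal (q : ℕ) L t from e]; exact ht.1)
    have h2 := hunr q q.2 hq _ (padicPlace_liesOverPrime (q : ℕ)) σ hσ
    have h3 : r σ = 1 := by
      have := h1.1
      rwa [pow_succ, h2, one_mul] at this
    rw [Subgroup.mem_bot]
    refine toGlobal_injective _ L ?_
    rw [map_one, ← e]
    exact (hres σ).mpr ⟨h3, h1.2⟩
  have hle : H ≤ fixK L K := Subgroup.map_mono inf_le_left
  have hzc : ∀ σ σ' : GQ, σ ζ' ≠ ζ' → σ' ζ' ≠ ζ' → σ ζ' = σ' ζ' := fun _ _ =>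
    apply_zeta_eq hζ'
  have hindex : ∀ a ∈ fixK L K, a ∉ H → ∀ b ∈ fixK L K, b ∉ H → a⁻¹ * b ∈ H := by
    intro a ha haH b hb hbH
    rw [← res_lift L a] at ha haH ⊢
    rw [← res_lift L b] at hb hbH ⊢
    rw [hmemH] at haH hbH
    rw [← map_inv, ← map_mul, hmemH]
    refine ⟨?_, ?_⟩
    · exact (hK _).mp (mul_mem (inv_mem ((hK _).mpr ((hmemK _).mp ha)))
        ((hK _).mpr ((hmemK _).mp hb)))
    · rw [AlgEquiv.mul_apply, ← hzc (lift L a) (lift L b) (fun e => haH ⟨(hmemK _).mp ha, e⟩)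
        (fun e => hbH ⟨(hmemK _).mp hb, e⟩), ← AlgEquiv.mul_apply, inv_mul_cancel,
        AlgEquiv.one_apply]
  have htwist : ∀ τ ∈ fixK L K, ∀ f ∈ fixedBy H (idl L), θ (τ • f) = θ f := by
    intro τ hτ f hf
    by_cases hτH : τ ∈ H
    · rw [hf τ hτH]
    -- an element of order six outside the step, congruent to `τ`
    obtain ⟨h, hh, hgh⟩ : ∃ h : L ≃ₐ[ℚ] L, h⁻¹ * τ ∈ H ∧ H ≤ Subgroup.zpowers h := by
      obtain ⟨σ, rfl⟩ : ∃ σ, res L σ = τ := ⟨_, res_lift L τ⟩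
      have hσ3 := (hmemK σ).mp hτ
      obtain ⟨σ', hσ'H, hσ'1⟩ : ∃ σ', res L (σ'⁻¹ * σ) ∈ H ∧ r σ' ≠ 1 := by
        by_cases h1 : r σ = 1
        · refine ⟨σ * (σ₀ * σ₀), ?_, ?_⟩
          · rw [show (σ * (σ₀ * σ₀))⁻¹ * σ = (σ₀ * σ₀)⁻¹ by group, map_inv]
            exact inv_mem hgH
          · rw [map_mul, h1, one_mul]
            exact fun e => hcube _ hσ₀ hσ₁ (by rw [pow_two, ← map_mul]; exact e)
        · exact ⟨σ, by rw [inv_mul_cancel, map_one]; exact one_mem _, h1⟩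
      have h'3 : r σ' ^ 3 = 1 := (hmemK σ').mp (by
        rw [show σ' = σ * (σ'⁻¹ * σ)⁻¹ by group, map_mul, map_inv (res L)]
        exact mul_mem hτ (inv_mem (hle hσ'H)))
      refine ⟨res L σ', by rw [← map_inv, ← map_mul]; exact hσ'H, ?_⟩
      have hsqH : res L σ' ^ 2 ∈ H := by
        rw [← map_pow, hmemH, map_pow, ← pow_mul, show 2 * 3 = 3 * 2 from rfl, pow_mul, h'3,
          one_pow, pow_two]
        exact ⟨rfl, hsq σ'⟩
      have hne : res L σ' ^ 2 ≠ 1 := fun e => hcube _ h'3 hσ'1 (by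
        rw [← map_pow] at e
        rw [← map_pow]; exact ((hres _).mp e).1)
      exact (hgenH _ hsqH hne).ge.trans
        (Subgroup.zpowers_le.mpr (Subgroup.npow_mem_zpowers (res L σ') 2))
    rw [show τ = h * (h⁻¹ * τ) by group, mul_smul, hf _ hh]
    exact hθ.smul_eq_of_le_zpowers hinert hζ hgen hord hgh hf
  have C : Ctx L K H θ := ⟨hKL, hθ, hinert, ⟨ζ, g, hζ, hgen, hord⟩, hle, htwist, hindex⟩
  refine ⟨idealChar θ hKL, fun I J hI hJ => C.idealChar_mul hI hJ, fun α hα =>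
    C.idealChar_span hα, ?_⟩
  intro ℓ hℓ h2 h3 A hA hin F hF hF3 P hP
  set q : Nat.Primes := ⟨ℓ, hℓ⟩
  have : Fact (Nat.Prime (q : ℕ)) := ⟨hℓ⟩
  obtain ⟨a, ha, hF'⟩ := exists_conj_frobenius q hA hF
  set F' := a⁻¹ * F * a with hF'def
  have hrF' : ∀ X : ℕ, r F' ^ X = r a⁻¹ * r F ^ X * r a := fun X => by
    rw [← map_pow, hF'def, show (a⁻¹ * F * a) ^ X = a⁻¹ * F ^ X * a by
      have e := conj_pow (a := a⁻¹) (b := F) (i := X); rwa [inv_inv] at e, map_mul, map_mul, map_pow]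
  have hun : inertia (E L q) = ⊥ := by
    refine (inertia_eq_bot_iff (q : ℕ) L).mpr fun τ hτ x => ?_
    have hτA : a * τ * a⁻¹ ∈ A.inertiaSubgroupIn ℚ := ha ▸ mem_inertia_smul_iff.mpr hτ
    have h1 : r τ = 1 := by
      have := hin _ hτA
      rw [show τ = a⁻¹ * (a * τ * a⁻¹) * a by group, map_mul, map_mul, this, mul_one, ← map_mul,
        inv_mul_cancel, map_one]
    have h4 : τ ζ' = ζ' := inertia_root (padicPlace_liesOverPrime (q : ℕ)) q.2 hτ
      hζ'.pow_eq_one fun hd => h3 ((Nat.prime_dvd_prime_iff_eq hℓ Nat.prime_three).mp hd)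
    rw [← res_apply L τ x, (hres τ).mpr ⟨h1, h4⟩]
    rfl
  have hk : decomp L q = Subgroup.zpowers (res L F') :=
    le_antisymm (decomp_le_zpowers hun hF') (Subgroup.zpowers_le.mpr (res_frobenius_mem_decomp hF'))
  have hkK : res L F' ∈ fixK L K := (hmemK F').mpr (by
    rw [hrF', hF3, mul_one, ← map_mul, inv_mul_cancel, map_one])
  have hPσ : ∀ x, x ∈ P ↔ absK hKL q (res L a)⁻¹ x < 1 := fun x => by
    rw [hP, ← ha]
    show _ ↔ ‖localEmb (q : ℕ) L ((res L a)⁻¹ (intoL hKL x))‖ < 1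
    rw [norm_localEmb, ← map_inv, res_apply, coe_intoL, ← mem_nonunits_padicPlace_iff,
      ← smul_mem_nonunits_smul_iff (g := a⁻¹), inv_smul_smul]
    rfl
  obtain ⟨hbot, htop⟩ := C.idealChar_prime (q := q) h2 hun hk hkK hPσ
  constructor
  · intro hψ
    by_contra hF1
    refine htop ?_ hψ
    have hk2 : res L F' ^ 2 ∈ H := by
      rw [← map_pow, hmemH, map_pow, ← pow_mul, hrF']
      refine ⟨?_, by rw [pow_two]; exact hsq F'⟩
      rw [show 2 * 3 = 3 * 2 from rfl, pow_mul, hF3, one_pow, mul_one, ← map_mul, inv_mul_cancel,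
        map_one]
    have hne : res L F' ^ 2 ≠ 1 := fun e => by
      rw [← map_pow] at e
      have h5 := ((hres _).mp e).1
      rw [map_pow, hrF'] at h5
      refine hcube _ hF3 hF1 ?_
      calc r F ^ 2 = r a * (r a⁻¹ * r F ^ 2 * r a) * r a⁻¹ := by
            simp only [← mul_assoc, ← map_mul, mul_inv_cancel, map_one, one_mul]
            rw [mul_assoc, ← map_mul, mul_inv_cancel, map_one, mul_one]
        _ = 1 := by rw [h5, mul_one, ← map_mul, mul_inv_cancel, map_one]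
    rw [hk]
    refine le_trans ?_ (Subgroup.zpowers_le.mpr (Subgroup.npow_mem_zpowers (res L F') 2))
    exact (hgenH _ hk2 hne).ge
  · intro hF1
    refine hbot (eq_bot_iff.mpr fun t ht => ?_)
    rw [Subgroup.mem_bot]
    refine toGlobal_injective _ L ?_
    rw [map_one]
    obtain ⟨i, hi⟩ : toGlobal (q : ℕ) L t ∈ Subgroup.zpowers (res L F') := hk ▸ ⟨t, rfl⟩
    have ht' : res L (F' ^ i) ∈ H := by
      rw [map_zpow, show res L F' ^ i = toGlobal (q : ℕ) L t from hi]; exact ht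
    have hr1 : F' ∈ r.ker := by
      rw [MonoidHom.mem_ker, ← pow_one (r F'), hrF', pow_one, hF1, mul_one, ← map_mul,
        inv_mul_cancel, map_one]
    rw [← hi]
    show res L F' ^ i = 1
    rw [← map_zpow]
    exact (hres _).mpr ⟨zpow_mem hr1 i, ((hmemH _).mp ht').2⟩

end Fermat.Agent.RT.Two.RingClass

end
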