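import Fermat.Agent.CFT.Idele.ClassFinite

/-!
# The idele of an ideal of a subfield

At each prime away from two the value is an element of the ideal of largest absolute value; at two
it is one.
-/

set_option autoImplicit false
set_option linter.unusedSectionVars false

noncomputable section

namespace Fermat.Agent.RT.Two.RingClass

open ExtCitation Fermat.Agent.Arith IntermediateField Fermat.Agent.CFT.Local Fermat.Agent.CFT.Idele
open scoped NumberField
open NumberField (RingOfIntegers)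

local instance factPrimeIdealIdele (q : Nat.Primes) : Fact (q : ℕ).Prime := ⟨q.2⟩

variable {L K : IntermediateField ℚ QBar} [FiniteDimensional ℚ L] [Normal ℚ L]
  [FiniteDimensional ℚ K]

/-- An integer of `K` as an element of `L`. -/
def intoL (hKL : K ≤ L) : 𝓞 K →+* L :=
  (IntermediateField.inclusion hKL).toRingHom.comp (algebraMap (𝓞 K) K)

theorem coe_intoL (hKL : K ≤ L) (a : 𝓞 K) : ((intoL hKL a : L) : QBar) = ((a : K) : QBar) := rfl

theorem intoL_injective (hKL : K ≤ L) : Function.Injective (intoL hKL) :=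
  fun _ _ h => RingOfIntegers.ext (Subtype.ext ((congrArg Subtype.val h : _)))

theorem isIntegral_intoL (hKL : K ≤ L) (a : 𝓞 K) : IsIntegral ℤ ((intoL hKL a : L) : QBar) :=
  a.2.map ((K.val).restrictScalars ℤ)

theorem absAt_intoL_le_one (hKL : K ≤ L) (a : 𝓞 K) (q : Nat.Primes) (σ : L ≃ₐ[ℚ] L) :
    absAt q σ (intoL hKL a) ≤ 1 :=
  absAt_le_one (isIntegral_intoL hKL a) q σ

theorem absAt_pos {x : L} (hx : x ≠ 0) (q : Nat.Primes) (σ : L ≃ₐ[ℚ] L) : 0 < absAt q σ x :=
  norm_pos_iff.mpr ((map_ne_zero _).mpr ((map_ne_zero _).mpr hx))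

open Classical in
/-- An element of largest value. -/
def pick (I : Ideal (𝓞 K)) (F : 𝓞 K → ℝ) : 𝓞 K :=
  if h : ∃ a ∈ I, a ≠ 0 ∧ ∀ b ∈ I, F b ≤ F a then h.choose else 1

theorem pick_ne_zero (I : Ideal (𝓞 K)) (F : 𝓞 K → ℝ) : pick I F ≠ 0 := by
  unfold pick
  split_ifs with h
  exacts [h.choose_spec.2.1, one_ne_zero]

variable (hKL : K ≤ L)

/-- The absolute value on the integers of `K` at a place of `L`. -/
def absK (q : Nat.Primes) (σ : L ≃ₐ[ℚ] L) (a : 𝓞 K) : ℝ := absAt q σ (intoL hKL a)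

theorem absK_mul (q : Nat.Primes) (σ : L ≃ₐ[ℚ] L) (a b : 𝓞 K) :
    absK hKL q σ (a * b) = absK hKL q σ a * absK hKL q σ b := by
  rw [absK, map_mul, absAt_mul]; rfl

theorem absK_nonneg (q : Nat.Primes) (σ : L ≃ₐ[ℚ] L) (a : 𝓞 K) : 0 ≤ absK hKL q σ a :=
  norm_nonneg _

theorem absK_add_le (q : Nat.Primes) (σ : L ≃ₐ[ℚ] L) (a b : 𝓞 K) :
    absK hKL q σ (a + b) ≤ max (absK hKL q σ a) (absK hKL q σ b) := by
  show ‖localEmb (q : ℕ) L (σ (intoL hKL (a + b)))‖ ≤ _
  rw [map_add, map_add, map_add]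
  exact IsUltrametricDist.norm_add_le_max _ _

theorem absK_zero (q : Nat.Primes) (σ : L ≃ₐ[ℚ] L) : absK hKL q σ 0 = 0 := by
  simp [absK, absAt]

theorem absK_le_of_span {s : Set (𝓞 K)} (q : Nat.Primes) (σ : L ≃ₐ[ℚ] L) {c : ℝ} (hc : 0 ≤ c)
    (h : ∀ b ∈ s, absK hKL q σ b ≤ c) {b : 𝓞 K} (hb : b ∈ Ideal.span s) :
    absK hKL q σ b ≤ c := by
  induction hb using Submodule.span_induction with
  | mem x hx => exact h x hx
  | zero => rw [absK_zero]; exact hc
  | add x y _ _ hx hy => exact (absK_add_le hKL q σ x y).trans (max_le hx hy)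
  | smul r x _ hx =>
    rw [smul_eq_mul, absK_mul]
    exact (mul_le_of_le_one_left (absK_nonneg hKL q σ x) (absAt_intoL_le_one hKL r q σ)).trans hx

theorem pick_spec {I : Ideal (𝓞 K)} (hI : I ≠ ⊥) (q : Nat.Primes) (σ : L ≃ₐ[ℚ] L) :
    pick I (absK hKL q σ) ∈ I ∧
      ∀ b ∈ I, absK hKL q σ b ≤ absK hKL q σ (pick I (absK hKL q σ)) := by
  classical
  have hex : ∃ a ∈ I, a ≠ 0 ∧ ∀ b ∈ I, absK hKL q σ b ≤ absK hKL q σ a := by
    have : NumberField K := ⟨⟩
    obtain ⟨s, hs⟩ := IsNoetherian.noetherian (R := 𝓞 K) (M := 𝓞 K) I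
    have hne : s.Nonempty := by
      rw [Finset.nonempty_iff_ne_empty]
      rintro rfl
      exact hI (hs.symm.trans (by simp))
    obtain ⟨a, ha, hmax⟩ := s.exists_max_image (absK hKL q σ) hne
    refine ⟨a, hs ▸ Submodule.subset_span ha, fun h0 => hI ?_, fun b hb => ?_⟩
    · rw [← hs, Submodule.span_eq_bot]
      intro x hx
      by_contra hx0
      exact absurd (hmax x hx) (not_le.mpr (by
        rw [h0, absK_zero]
        exact absAt_pos (fun e => hx0 (intoL_injective hKL (e.trans (map_zero _).symm))) q σ))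
    · exact absK_le_of_span hKL q σ (absK_nonneg hKL q σ a) hmax
        (show b ∈ Ideal.span (s : Set (𝓞 K)) from hs.ge hb)
  unfold pick
  rw [dif_pos hex]
  exact ⟨hex.choose_spec.1, hex.choose_spec.2.2⟩

/-- The picked element as a unit of `L`. -/
def pickUnit (I : Ideal (𝓞 K)) (q : Nat.Primes) (σ : L ≃ₐ[ℚ] L) : Lˣ :=
  Units.mk0 (intoL hKL (pick I (absK hKL q σ)))
    fun h => pick_ne_zero I _ (intoL_injective hKL (h.trans (map_zero _).symm))

theorem absK_toGlobal_mul (q : Nat.Primes) (t : E L q ≃ₐ[ℚ_[(q : ℕ)]] E L q) (σ : L ≃ₐ[ℚ] L) :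
    absK hKL q (toGlobal (q : ℕ) L t * σ) = absK hKL q σ :=
  funext fun _ => absAt_range q t σ _

open Classical in
/-- The values of the idele of an ideal. -/
def idealValue (I : Ideal (𝓞 K)) (q : Nat.Primes) (σ : L ≃ₐ[ℚ] L) : (E L q)ˣ :=
  if (q : ℕ) = 2 then 1
  else Units.map (localEmb (q : ℕ) L : L →* E L q) (σ • pickUnit hKL I q σ)

theorem norm_idealValue (I : Ideal (𝓞 K)) {q : Nat.Primes} (hq : (q : ℕ) ≠ 2)
    (σ : L ≃ₐ[ℚ] L) :
    ‖((idealValue hKL I q σ : (E L q)ˣ) : E L q)‖ =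
      absK hKL q σ (pick I (absK hKL q σ)) := by
  rw [idealValue, if_neg hq]
  rfl

theorem norm_idealValue_eq {I : Ideal (𝓞 K)} {q : Nat.Primes} (hq : (q : ℕ) ≠ 2) (hI : I ≠ ⊥)
    (σ : L ≃ₐ[ℚ] L) {a : 𝓞 K} (ha : a ∈ I)
    (hmax : ∀ b ∈ I, absK hKL q σ b ≤ absK hKL q σ a) :
    ‖((idealValue hKL I q σ : (E L q)ˣ) : E L q)‖ = absK hKL q σ a := by
  rw [norm_idealValue hKL I hq]
  exact le_antisymm (hmax _ (pick_spec hKL hI q σ).1) ((pick_spec hKL hI q σ).2 a ha)

theorem exists_finset_idealValue (I : Ideal (𝓞 K)) :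
    ∃ T : Finset Nat.Primes, ∀ q ∉ T, ∀ σ, idealValue hKL I q σ ∈ unitGroup (E L q) := by
  classical
  by_cases hI : I = ⊥
  · refine ⟨∅, fun q _ σ => (mem_unitGroup _).mpr ?_⟩
    by_cases hq : (q : ℕ) = 2
    · rw [idealValue, if_pos hq, Units.val_one, norm_one]
    · have h1 : pick I (absK hKL q σ) = 1 := dif_neg (by
        rintro ⟨a, ha, ha0, -⟩
        exact ha0 (by rw [hI] at ha; exact (Submodule.mem_bot _).mp ha))
      rw [norm_idealValue hKL I hq, h1, absK, map_one, absAt, map_one, map_one, norm_one]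
  · obtain ⟨a, ha, ha0⟩ := Submodule.exists_mem_ne_zero_of_ne_bot hI
    obtain ⟨T, hT⟩ := exists_finset_absAt (intoL hKL a)
      fun h => ha0 (intoL_injective hKL (h.trans (map_zero _).symm))
    refine ⟨T, fun q hqT σ => (mem_unitGroup _).mpr ?_⟩
    by_cases hq : (q : ℕ) = 2
    · rw [idealValue, if_pos hq, Units.val_one, norm_one]
    · rw [norm_idealValue hKL I hq]
      exact le_antisymm (absAt_intoL_le_one hKL _ q σ)
        ((hT q hqT σ).ge.trans ((pick_spec hKL hI q σ).2 a ha))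

/-- The idele of an ideal. -/
def idealIdele (I : Ideal (𝓞 K)) : idl L :=
  ({ toFun := idealValue hKL I
     equi := fun q t σ => by
      by_cases hq : (q : ℕ) = 2
      · simp only [idealValue, if_pos hq, smul_one]
      · refine Units.ext ?_
        simp only [idealValue, if_neg hq, pickUnit, absK_toGlobal_mul]
        exact localEmb_toGlobal (q : ℕ) L t (σ (intoL hKL (pick I (absK hKL q σ))))
     cofinite := exists_finset_idealValue hKL I } : Family L).toIdl

theorem val_idealIdele (I : Ideal (𝓞 K)) (q : Nat.Primes) (σ : L ≃ₐ[ℚ] L) :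
    val (idealIdele hKL I) q σ = idealValue hKL I q σ := Family.val_toIdl _ q σ

theorem intoL_fixed {h : L ≃ₐ[ℚ] L} (hh : h ∈ K.fixingSubgroup.map (res L)) (a : 𝓞 K) :
    h (intoL hKL a) = intoL hKL a := by
  obtain ⟨s, hs, rfl⟩ := hh
  exact Subtype.ext ((res_apply L s _).trans
    ((IntermediateField.mem_fixingSubgroup_iff _ _).mp hs _ (SetLike.coe_mem (a : K))))

theorem idealIdele_mem_fixedBy (I : Ideal (𝓞 K)) :
    idealIdele hKL I ∈ fixedBy (K.fixingSubgroup.map (res L)) (idl L) := by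
  intro h hh
  refine val_ext fun q σ => ?_
  rw [val_smul, val_idealIdele, val_idealIdele]
  have e : absK hKL q (σ * h) = absK hKL q σ := funext fun a => by
    show ‖localEmb (q : ℕ) L ((σ * h) (intoL hKL a))‖ = _
    rw [AlgEquiv.mul_apply, intoL_fixed hKL hh]; rfl
  by_cases hq : (q : ℕ) = 2
  · simp only [idealValue, if_pos hq]
  · refine Units.ext ?_
    simp only [idealValue, if_neg hq, pickUnit, e]
    exact congrArg (fun z => localEmb (q : ℕ) L (σ z)) (intoL_fixed hKL hh _)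

end Fermat.Agent.RT.Two.RingClass

end
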